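import Fermat.Agent.MomentLower.Main
import Fermat.Agent.BombieriVinogradov.MeanValue
import Fermat.Agent.SiegelWalfisz.Bounds
import Mathlib.NumberTheory.DirichletCharacter.Orthogonality

/-!
# Lower bounds for the moments of `L (1/2, χ)` to a prime modulus

The method of `Main` with orthogonality in place of the integral: all coefficients are nonnegative,
so the congruences only add to the diagonal. The series of `L (1/2, χ)` is cut at about `q ^ (3/2)`,
what follows being `O (1)` by Pólya and Vinogradov.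
-/

set_option autoImplicit false

noncomputable section

namespace FA.MomentLower

open Finset ArithmeticFunction Filter MeasureTheory
open DirichletCharacter (LFunction)
open FA.Siegel (charSum)
open FA.BombieriVinogradov (pvBound pvBound_nonneg norm_interval_le)
open scoped ComplexConjugate Topology

variable {q : ℕ}

/-- `∑_{n ≤ X} f n χ n / √n`. -/
def cpoly (f : ArithmeticFunction ℝ) (X : ℕ) (χ : DirichletCharacter ℂ q) : ℂ :=
  ∑ n ∈ Icc 1 X, ((f n / √(n : ℝ) : ℝ) : ℂ) * χ (n : ZMod q)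

theorem norm_cpoly_le {f : ArithmeticFunction ℝ} (hf : ∀ n, 0 ≤ f n) (X : ℕ)
    (χ : DirichletCharacter ℂ q) : ‖cpoly f X χ‖ ≤ mass f X := by
  refine (norm_sum_le _ _).trans (sum_le_sum fun n _ => ?_)
  rw [norm_mul, Complex.norm_real, Real.norm_of_nonneg (div_nonneg (hf n) (Real.sqrt_nonneg _))]
  exact mul_le_of_le_one_right (div_nonneg (hf n) (Real.sqrt_nonneg _)) (χ.norm_le_one _)

/-- **The product of two sums.** -/
theorem cpoly_mul {f g : ArithmeticFunction ℝ} {X Y : ℕ} (hf : ∀ n, X < n → f n = 0)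
    (hg : ∀ n, Y < n → g n = 0) (χ : DirichletCharacter ℂ q) :
    cpoly f X χ * cpoly g Y χ = cpoly (f * g) (X * Y) χ := by
  classical
  rw [cpoly, cpoly, cpoly, sum_mul_sum, ← sum_product',
    ← sum_fiberwise_of_maps_to (s := Icc 1 X ×ˢ Icc 1 Y) (t := Icc 1 (X * Y))
      (g := fun x : ℕ × ℕ => x.1 * x.2) fun x hx => by
        simp only [Finset.mem_product, mem_Icc] at hx ⊢
        exact ⟨Nat.mul_pos hx.1.1 hx.2.1, Nat.mul_le_mul hx.1.2 hx.2.2⟩]
  refine sum_congr rfl fun n hn => ?_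
  have hn0 : n ≠ 0 := Nat.one_le_iff_ne_zero.1 (mem_Icc.1 hn).1
  rw [mul_apply, sum_div, Complex.ofReal_sum, sum_mul]
  refine (sum_congr rfl fun x hx => ?_).trans
    (sum_subset (fun x hx => ?_) fun x hx hxs => ?_)
  · simp only [mem_filter] at hx
    rw [← hx.2, Nat.cast_mul, Nat.cast_mul, Real.sqrt_mul (Nat.cast_nonneg _), map_mul]
    push_cast
    ring
  · simp only [mem_filter] at hx
    exact Nat.mem_divisorsAntidiagonal.2 ⟨hx.2, hn0⟩
  · obtain ⟨h3, -⟩ := Nat.mem_divisorsAntidiagonal.1 hx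
    simp only [mem_filter, Finset.mem_product, mem_Icc, h3, and_true] at hxs
    have h1 : 1 ≤ x.1 := Nat.one_le_iff_ne_zero.2 fun h => hn0 (by rw [← h3, h, zero_mul])
    have h2 : 1 ≤ x.2 := Nat.one_le_iff_ne_zero.2 fun h => hn0 (by rw [← h3, h, mul_zero])
    rcases lt_or_ge X x.1 with h | h
    · rw [hf _ h]; simp
    rcases lt_or_ge Y x.2 with h' | h'
    · rw [hg _ h']; simp
    exact absurd ⟨⟨h1, h⟩, h2, h'⟩ hxs

theorem cpoly_cutoff_pow (f : ArithmeticFunction ℝ) (N m : ℕ) (χ : DirichletCharacter ℂ q) :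
    cpoly (cutoff f N) N χ ^ m = cpoly (cutoff f N ^ m) (N ^ m) χ := by
  induction m with
  | zero => simp [cpoly, one_apply]
  | succ m ih =>
    rw [pow_succ, pow_succ, pow_succ, ih, cpoly_mul (fun n hn => cutoff_pow_eq_zero f N m hn)
      fun n hn => cutoff_of_lt f hn]

variable [NeZero q]

/-- The sum over all characters. -/
def congrPairs (f g : ArithmeticFunction ℝ) (X Y q : ℕ) : ℝ :=
  ∑ n ∈ Icc 1 X, ∑ m ∈ Icc 1 Y,
    if (m : ZMod q) = n then f n / √(n : ℝ) * (g m / √(m : ℝ)) else 0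

/-- **Orthogonality.** -/
theorem sum_cpoly_conj (hq : q.Prime) {f g : ArithmeticFunction ℝ} {X Y : ℕ} (hY : Y < q) :
    ∑ χ : DirichletCharacter ℂ q, cpoly f X χ * conj (cpoly g Y χ) =
      ((q.totient * congrPairs f g X Y q : ℝ) : ℂ) := by
  classical
  simp only [cpoly, map_sum, sum_mul_sum]
  simp only [congrPairs, mul_sum, Complex.ofReal_sum]
  rw [sum_comm]
  refine sum_congr rfl fun n _ => ?_
  rw [sum_comm]
  refine sum_congr rfl fun m hm => ?_
  rw [mem_Icc] at hm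
  have hu : IsUnit (m : ZMod q) := (ZMod.isUnit_iff_coprime m q).2
    ((Nat.coprime_comm).1 (hq.coprime_iff_not_dvd.2 fun h =>
      absurd (Nat.le_of_dvd (by omega) h) (by omega)))
  rw [sum_congr rfl (g := fun χ : DirichletCharacter ℂ q =>
    ((f n / √(n : ℝ) * (g m / √(m : ℝ)) : ℝ) : ℂ) *
      (χ (m : ZMod q)⁻¹ * χ (n : ZMod q))) fun χ _ => ?_, ← mul_sum,
    DirichletCharacter.sum_char_inv_mul_char_eq ℂ hu]
  · split_ifs <;> push_cast <;> ring
  · rw [map_mul, Complex.conj_ofReal, starRingEnd_apply, MulChar.star_apply',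
      MulChar.inv_apply_eq_inv', inv_eq_of_mul_eq_one_left (a := χ ((m : ZMod q)⁻¹))
        (by rw [← map_mul, ZMod.inv_mul_of_unit _ hu, map_one])]
    push_cast
    ring

omit [NeZero q] in
theorem diag_le_congrPairs {f g : ArithmeticFunction ℝ} (hf : ∀ n, 0 ≤ f n) (hg : ∀ n, 0 ≤ g n)
    {X Y : ℕ} (hYX : Y ≤ X) : diag f g Y ≤ congrPairs f g X Y q := by
  have h0 : ∀ n m : ℕ, 0 ≤ f n / √(n : ℝ) * (g m / √(m : ℝ)) := fun n m =>
    mul_nonneg (div_nonneg (hf n) (Real.sqrt_nonneg _)) (div_nonneg (hg m) (Real.sqrt_nonneg _))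
  refine (sum_le_sum fun n hn => ?_).trans (sum_le_sum_of_subset_of_nonneg
    (Icc_subset_Icc_right hYX) fun n _ _ => sum_nonneg fun m _ => by
      split_ifs
      exacts [h0 n m, le_rfl])
  refine le_trans (le_of_eq ?_) (single_le_sum (fun m _ => ?_) hn)
  · rw [if_pos rfl, div_mul_div_comm, Real.mul_self_sqrt (Nat.cast_nonneg n)]
  · split_ifs
    exacts [h0 n m, le_rfl]

omit [NeZero q] in
theorem congrPairs_self {f : ArithmeticFunction ℝ} {X : ℕ} (hX : X < q) :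
    congrPairs f f X X q = diag f f X := by
  refine sum_congr rfl fun n hn => ?_
  rw [sum_congr rfl (g := fun m => if m = n then f n / √(n : ℝ) * (f m / √(m : ℝ)) else 0)
    fun m hm => if_congr ?_ rfl rfl, sum_ite_eq', if_pos hn, div_mul_div_comm,
    Real.mul_self_sqrt (Nat.cast_nonneg n)]
  rw [mem_Icc] at hn hm
  rw [ZMod.natCast_eq_natCast_iff', Nat.mod_eq_of_lt (show n < q by omega),
    Nat.mod_eq_of_lt (show m < q by omega)]

theorem isPrimitive_of_prime (hq : q.Prime) {χ : DirichletCharacter ℂ q} (hχ : χ ≠ 1) :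
    χ.IsPrimitive :=
  ((Nat.dvd_prime hq).1 χ.conductor_dvd_level).resolve_left fun h =>
    hχ (DirichletCharacter.eq_one_iff_conductor_eq_one.2 h)

/-- **The cut series of `L (1/2, χ)`.** -/
theorem norm_lfunction_sub_le (hq : q.Prime) {χ : DirichletCharacter ℂ q} (hχ : χ ≠ 1) {M : ℕ}
    (hM : 1 ≤ M) :
    ‖LFunction χ (1 / 2) -
        cpoly (cutoff (ArithmeticFunction.zeta : ArithmeticFunction ℝ) M) M χ‖ ≤
      2 * pvBound q / √(M : ℝ) := by
  have hS : ∀ t : ℝ, ‖charSum χ t‖ ≤ pvBound q := fun t => by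
    have h := norm_interval_le hq.one_lt (isPrimitive_of_prime hq hχ) 0 ⌊t⌋₊
    rwa [show Ioc 0 ⌊t⌋₊ = Icc 1 ⌊t⌋₊ by ext; simp [Nat.one_le_iff_ne_zero, Nat.pos_iff_ne_zero]]
      at h
  have hM0 : (0 : ℝ) < M := Nat.cast_pos.2 hM
  have hhead : cpoly (cutoff (ArithmeticFunction.zeta : ArithmeticFunction ℝ) M) M χ =
      ∑ n ∈ Icc 1 M, χ n * (n : ℂ) ^ (-(1 / 2 : ℂ)) := by
    refine sum_congr rfl fun n hn => ?_
    obtain ⟨h1, h2⟩ := mem_Icc.1 hn
    rw [cutoff_apply, if_pos h2, natCoe_apply, zeta_apply_ne (by omega), Nat.cast_one, mul_comm,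
      Complex.cpow_neg, Real.sqrt_eq_rpow, Complex.ofReal_div, Complex.ofReal_one,
      Complex.ofReal_cpow (Nat.cast_nonneg n), one_div]
    push_cast
    simp [one_div]
  rw [SiegelWalfisz.lfunction_truncated hχ (by norm_num) hM, ← hhead]
  obtain ⟨A, hA⟩ : ∃ A, A = cpoly (cutoff (ArithmeticFunction.zeta : ArithmeticFunction ℝ) M) M χ :=
    ⟨_, rfl⟩
  rw [← hA, sub_add, sub_sub_cancel_left, norm_neg]
  refine (norm_sub_le _ _).trans ?_
  have e1 : ‖charSum χ (M : ℝ) * (M : ℂ) ^ (-(1 / 2 : ℂ))‖ ≤ pvBound q / √(M : ℝ) := by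
    rw [norm_mul, Complex.norm_natCast_cpow_of_pos hM,
      show (-(1 / 2 : ℂ)).re = -(1 / 2 : ℝ) by norm_num, div_eq_mul_inv (pvBound q),
      Real.sqrt_eq_rpow, ← Real.rpow_neg hM0.le]
    exact mul_le_mul_of_nonneg_right (hS _) (Real.rpow_nonneg hM0.le _)
  have e2 : ‖(1 / 2 : ℂ) * ∫ t in Set.Ioi (M : ℝ), charSum χ t * (t : ℂ) ^ (-((1 / 2 : ℂ) + 1))‖ ≤
      pvBound q / √(M : ℝ) := by
    rw [norm_mul]
    refine (mul_le_mul_of_nonneg_left (norm_integral_le_of_norm_le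
      ((integrableOn_Ioi_rpow_of_lt (a := -(3 / 2 : ℝ)) (by norm_num) hM0).const_mul
        (pvBound q)) ?_) (norm_nonneg _)).trans (le_of_eq ?_)
    · filter_upwards [ae_restrict_mem measurableSet_Ioi] with t ht
      have ht0 : 0 < t := hM0.trans ht
      rw [norm_mul, Complex.norm_cpow_eq_rpow_re_of_pos ht0]
      exact mul_le_mul (hS t) (le_of_eq (by norm_num)) (Real.rpow_nonneg ht0.le _)
        (pvBound_nonneg q)
    · rw [integral_const_mul, integral_Ioi_rpow_of_lt (by norm_num) hM0,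
        show (-(3 / 2 : ℝ) + 1) = -(1 / 2) by norm_num, Real.rpow_neg hM0.le, ← Real.sqrt_eq_rpow]
      norm_num
      ring
  rw [two_mul, add_div]
  exact add_le_add e1 e2

omit [NeZero q] in
/-- Lower bounds for the moments of `L (1/2, χ)`, rational exponent `a / d ≥ 1`. -/
theorem exists_char_moment_lower {a d : ℕ} (hd : 0 < d) (hda : d ≤ a) :
    ∃ c, 0 < c ∧ ∀ᶠ q : ℕ in atTop, ∀ _ : NeZero q, q.Prime →
      c * q * Real.log q ^ (((a : ℝ) / d) ^ 2) ≤
        ∑ χ ∈ {χ : DirichletCharacter ℂ q | χ ≠ 1},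
          ‖LFunction χ (1 / 2)‖ ^ (2 * ((a : ℝ) / d)) := by
  obtain ⟨k, hk⟩ : ∃ k, k = (a : ℝ) / d := ⟨_, rfl⟩
  rw [← hk]
  have ha : 1 ≤ a := by omega
  have hd' : (0 : ℝ) < d := Nat.cast_pos.2 hd
  have hk1 : 1 ≤ k := hk ▸ (one_le_div hd').2 (Nat.cast_le.2 hda)
  obtain ⟨u, hu⟩ : ∃ u : ℝ, u = 1 / d := ⟨_, rfl⟩
  have hu0 : 0 ≤ u := hu ▸ by positivity
  have hu1 : u ≤ 1 := hu ▸ (div_le_one hd').2 (Nat.one_le_cast.2 hd)
  obtain ⟨g, hg⟩ : ∃ g, g = k ^ 2 := ⟨_, rfl⟩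
  have hg1 : 1 ≤ g := hg ▸ one_le_pow₀ hk1
  obtain ⟨C, hC0, hC⟩ := exists_sum_sq_div_le u a
  rw [show (a : ℝ) * u = k by rw [hu, hk, mul_one_div], ← hg] at hC
  obtain ⟨c, hc0, hc⟩ := exists_le_sum_squarefree (show 0 ≤ g by linarith)
  obtain ⟨θ, hθ⟩ : ∃ θ : ℝ, θ = 1 / (8 * a) := ⟨_, rfl⟩
  have hθ0 : 0 < θ := hθ ▸ by positivity
  obtain ⟨c', hc'⟩ : ∃ c', c' = c * (θ / 2) ^ g := ⟨_, rfl⟩
  have hc'0 : 0 < c' := hc' ▸ by positivity
  obtain ⟨K, hK⟩ : ∃ K : ℝ, K = 4 * 2 ^ (2 * a) := ⟨_, rfl⟩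
  have hK0 : 0 < K := hK ▸ by positivity
  obtain ⟨ε, hε⟩ : ∃ ε, ε = c' / (16 * C) := ⟨_, rfl⟩
  have hε0 : 0 < ε := hε ▸ by positivity
  obtain ⟨E, hE⟩ : ∃ E, E = ε * (1 / ε) ^ (2 * k) := ⟨_, rfl⟩
  have hE0 : 0 < E := hE ▸ by positivity
  obtain ⟨E', hE'⟩ : ∃ E', E' = ε * (10 / ε) ^ (2 * k) + K := ⟨_, rfl⟩
  refine ⟨c' / (4 * E), by positivity, ?_⟩
  obtain ⟨Nf, hNf⟩ : ∃ Nf : ℕ → ℕ, Nf = fun q : ℕ => ⌊(q : ℝ) ^ θ⌋₊ := ⟨_, rfl⟩
  have hNtop : Tendsto Nf atTop atTop :=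
    hNf ▸ tendsto_nat_floor_atTop.comp ((tendsto_rpow_atTop hθ0).comp tendsto_natCast_atTop_atTop)
  have hlog : Tendsto (fun q : ℕ => Real.log q) atTop atTop :=
    Real.tendsto_log_atTop.comp tendsto_natCast_atTop_atTop
  filter_upwards [hNtop.eventually hc, hNtop.eventually_ge_atTop 2, eventually_ge_atTop 3,
    hlog.eventually_ge_atTop 1, hlog.eventually_ge_atTop (2 * Real.log 2 / θ),
    hlog.eventually_ge_atTop (8 * E' / c')] with q hD hN2 hq3 hl1 hlθ hlE hne hq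
  have : NeZero q := hne
  have hqR : (3 : ℝ) ≤ q := by exact_mod_cast hq3
  have hq0 : (0 : ℝ) < q := by linarith
  obtain ⟨N, hN⟩ : ∃ N, N = Nf q := ⟨_, rfl⟩
  rw [← hN] at hD hN2
  obtain ⟨M, hM⟩ : ∃ M, M = q * (Nat.sqrt q + 1) := ⟨_, rfl⟩
  have hN1 : (1 : ℝ) ≤ N := Nat.one_le_cast.2 (by omega)
  have hNle : (N : ℝ) ≤ (q : ℝ) ^ θ := by
    rw [hN, hNf]
    exact Nat.floor_le (by positivity)
  have hNlt : (q : ℝ) ^ θ < (N : ℝ) + 1 := by
    rw [hN, hNf]
    exact Nat.lt_floor_add_one _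
  obtain ⟨Q, hQ⟩ : ∃ Q, Q = (q : ℝ) ^ ((1 : ℝ) / 8) := ⟨_, rfl⟩
  have hQ1 : 1 ≤ Q := hQ ▸ Real.one_le_rpow (by linarith) (by norm_num)
  have hQ8 : Q ^ 8 = q := by
    rw [hQ, ← Real.rpow_natCast, ← Real.rpow_mul hq0.le]
    norm_num
  have hNa : ((N ^ a : ℕ) : ℝ) ≤ Q := by
    have haR : (a : ℝ) ≠ 0 := Nat.cast_ne_zero.2 (by omega)
    rw [Nat.cast_pow, hQ, show (1 : ℝ) / 8 = θ * a by rw [hθ]; field_simp,
      Real.rpow_mul hq0.le, Real.rpow_natCast]
    exact pow_le_pow_left₀ (Nat.cast_nonneg N) hNle _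
  have hQq : Q < q := by
    rw [hQ]
    conv_rhs => rw [← Real.rpow_one (q : ℝ)]
    exact Real.rpow_lt_rpow_of_exponent_lt (by linarith) (by norm_num)
  have hNaq : N ^ a < q := Nat.cast_lt.1 (hNa.trans_lt hQq)
  have hqM : q ≤ M := hM ▸ Nat.le_mul_of_pos_right _ (Nat.succ_pos _)
  have hNM : N ≤ M := ((Nat.le_self_pow (by omega) N).trans hNaq.le).trans hqM
  obtain ⟨f, hf⟩ : ∃ f, f = cutoff (sqfWeight u) N := ⟨_, rfl⟩
  obtain ⟨h, hh⟩ : ∃ h, h = cutoff (ArithmeticFunction.zeta : ArithmeticFunction ℝ) M *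
      f ^ (a - d) := ⟨_, rfl⟩
  have hf0 : ∀ n, 0 ≤ f n := fun n => hf ▸ (cutoff_le (sqfWeight_nonneg hu0) N n).1
  have hz0 : ∀ n, 0 ≤ cutoff (ArithmeticFunction.zeta : ArithmeticFunction ℝ) M n := fun n =>
    (cutoff_le (fun k => by rw [natCoe_apply]; positivity) M n).1
  have hh0 : ∀ n, 0 ≤ h n := fun n => hh ▸ mul_nonneg_apply hz0 (pow_nonneg_apply hf0 _) n
  obtain ⟨X, hX⟩ : ∃ X, X = M * N ^ (a - d) := ⟨_, rfl⟩
  have hYX : N ^ a ≤ X :=
    hX ▸ (hNaq.le.trans hqM).trans (Nat.le_mul_of_pos_right _ (Nat.pow_pos (by omega)))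
  have hmassf : mass f N ≤ 2 * √(N : ℝ) := hf ▸ mass_cutoff_le (sqfWeight_le_one hu0 hu1) N
  have hmz : mass (cutoff (ArithmeticFunction.zeta : ArithmeticFunction ℝ) M) M ≤
      2 * √(M : ℝ) := by
    refine mass_cutoff_le (fun n => ?_) M
    rw [natCoe_apply, zeta_apply]
    split_ifs <;> simp
  have hsN : √(N : ℝ) ^ (2 * a) ≤ Q := by
    rw [pow_mul, Real.sq_sqrt (Nat.cast_nonneg N), ← Nat.cast_pow]
    exact hNa
  have hsqM : √(M : ℝ) ≤ 2 * Q ^ 6 := by
    rw [Real.sqrt_le_iff]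
    refine ⟨by positivity, ?_⟩
    have h1 : ((Nat.sqrt q : ℕ) : ℝ) ≤ Q ^ 4 := by
      refine le_of_pow_le_pow_left₀ two_ne_zero (by positivity) ?_
      rw [← pow_mul, hQ8]
      exact_mod_cast Nat.sqrt_le' q
    have h2 : (1 : ℝ) ≤ Q ^ 4 := one_le_pow₀ hQ1
    rw [hM, Nat.cast_mul, Nat.cast_add, Nat.cast_one, ← hQ8]
    nlinarith [mul_le_mul_of_nonneg_left (add_le_add h1 h2) (show 0 ≤ Q ^ 8 by positivity)]
  have hMlo : Q ^ 12 ≤ (M : ℝ) := by
    have h1 : Q ^ 4 ≤ ((Nat.sqrt q : ℕ) : ℝ) + 1 := by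
      refine le_of_pow_le_pow_left₀ two_ne_zero (by positivity) ?_
      rw [← pow_mul, hQ8]
      exact_mod_cast (Nat.lt_succ_sqrt' q).le
    rw [hM, Nat.cast_mul, Nat.cast_add, Nat.cast_one, show Q ^ 12 = Q ^ 8 * Q ^ 4 by ring, hQ8]
    exact mul_le_mul_of_nonneg_left h1 hq0.le
  obtain ⟨S, hS⟩ : ∃ S : Finset (DirichletCharacter ℂ q), S = ({χ | χ ≠ 1} : Finset _) := ⟨_, rfl⟩
  rw [← hS]
  have hSne : ∀ χ ∈ S, χ ≠ 1 := fun χ hχ => by
    rw [hS] at hχ
    exact (mem_filter.1 hχ).2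
  have hScard : (#S : ℝ) ≤ q := by
    refine Nat.cast_le.2 ((card_le_univ _).trans (le_of_eq_of_le ?_ (Nat.totient_le q)))
    rw [← Nat.card_eq_fintype_card,
      DirichletCharacter.card_eq_totient_of_hasEnoughRootsOfUnity ℂ q]
  -- the head against the polynomial
  have hI : q.totient * (c' * Real.log q ^ g) - K * q ≤
      ∑ χ ∈ S, ‖cpoly (cutoff (ArithmeticFunction.zeta : ArithmeticFunction ℝ) M) M χ‖ *
        ‖cpoly f N χ‖ ^ (2 * a - d) := by
    have e : ∀ χ : DirichletCharacter ℂ q, ‖cpoly h X χ * conj (cpoly (f ^ a) (N ^ a) χ)‖ =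
        ‖cpoly (cutoff (ArithmeticFunction.zeta : ArithmeticFunction ℝ) M) M χ‖ *
          ‖cpoly f N χ‖ ^ (2 * a - d) := fun χ => by
      rw [hh, hX, hf, ← cpoly_mul (fun n hn => cutoff_of_lt _ hn)
        (fun n hn => cutoff_pow_eq_zero _ N _ hn), ← cpoly_cutoff_pow, ← cpoly_cutoff_pow,
        norm_mul, norm_mul, Complex.norm_conj, norm_pow, norm_pow, mul_assoc, ← pow_add,
        show a - d + a = 2 * a - d by omega]
    have hsplit : ∑ χ ∈ S, cpoly h X χ * conj (cpoly (f ^ a) (N ^ a) χ) =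
        ((q.totient * congrPairs h (f ^ a) X (N ^ a) q : ℝ) : ℂ) -
          cpoly h X (1 : DirichletCharacter ℂ q) *
            conj (cpoly (f ^ a) (N ^ a) (1 : DirichletCharacter ℂ q)) := by
      classical
      rw [hS, ← sum_cpoly_conj hq hNaq, ← sum_erase_eq_sub (mem_univ _)]
      exact sum_congr (by ext χ; simp) fun _ _ => rfl
    have h1 : ‖∑ χ ∈ S, cpoly h X χ * conj (cpoly (f ^ a) (N ^ a) χ)‖ ≤
        ∑ χ ∈ S, ‖cpoly (cutoff (ArithmeticFunction.zeta : ArithmeticFunction ℝ) M) M χ‖ *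
          ‖cpoly f N χ‖ ^ (2 * a - d) :=
      (norm_sum_le _ _).trans (le_of_eq (sum_congr rfl fun χ _ => e χ))
    have h2 : c' * Real.log q ^ g ≤ congrPairs h (f ^ a) X (N ^ a) q := by
      refine le_trans ?_ (diag_le_congrPairs hh0 (pow_nonneg_apply hf0 a) hYX)
      have h4 := le_diag_zeta hd hda hNM ha
      rw [← hk, ← hg, ← hu, ← hf, ← hh] at h4
      refine le_trans ?_ (hD.trans h4)
      rw [hc', mul_assoc, ← Real.mul_rpow (by positivity) (by linarith)]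
      refine mul_le_mul_of_nonneg_left (Real.rpow_le_rpow (by positivity) ?_ (by linarith)) hc0.le
      have h5 : Real.log ((q : ℝ) ^ θ) ≤ Real.log ((N : ℝ) + 1) :=
        Real.log_le_log (by positivity) hNlt.le
      have h6 : Real.log ((N : ℝ) + 1) ≤ Real.log 2 + Real.log N := by
        rw [← Real.log_mul two_ne_zero (by linarith)]
        exact Real.log_le_log (by linarith) (by linarith)
      rw [Real.log_rpow hq0] at h5
      rw [div_le_iff₀ hθ0] at hlθ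
      linarith
    have h3 : ‖cpoly h X (1 : DirichletCharacter ℂ q) *
            conj (cpoly (f ^ a) (N ^ a) (1 : DirichletCharacter ℂ q))‖ ≤
        K * q := by
      have hm : ‖cpoly h X (1 : DirichletCharacter ℂ q)‖ ≤
          2 * √(M : ℝ) * (2 * √(N : ℝ)) ^ (a - d) := by
        refine (norm_cpoly_le hh0 X _).trans ?_
        rw [hh, hX, hf, mass_mul (fun n hn => cutoff_of_lt _ hn)
          fun n hn => cutoff_pow_eq_zero _ N _ hn, mass_cutoff_pow, ← hf]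
        exact mul_le_mul hmz (pow_le_pow_left₀ (mass_nonneg hf0 N) hmassf _)
          (pow_nonneg (mass_nonneg hf0 N) _) (by positivity)
      have hm' : ‖cpoly (f ^ a) (N ^ a) (1 : DirichletCharacter ℂ q)‖ ≤
          (2 * √(N : ℝ)) ^ a := by
        refine (norm_cpoly_le (pow_nonneg_apply hf0 a) _ _).trans ?_
        rw [hf, mass_cutoff_pow, ← hf]
        exact pow_le_pow_left₀ (mass_nonneg hf0 N) hmassf a
      rw [norm_mul, Complex.norm_conj]
      refine (mul_le_mul hm hm' (norm_nonneg _) (by positivity)).trans ?_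
      rw [mul_assoc (2 * √(M : ℝ)), ← pow_add]
      calc 2 * √(M : ℝ) * (2 * √(N : ℝ)) ^ (a - d + a)
          ≤ 2 * (2 * Q ^ 6) * (2 ^ (2 * a) * Q) := by
            refine mul_le_mul (by linarith) ?_ (by positivity) (by positivity)
            refine (pow_le_pow_right₀ (?_ : (1 : ℝ) ≤ 2 * √(N : ℝ))
              (show a - d + a ≤ 2 * a by omega)).trans ?_
            · linarith [Real.one_le_sqrt.2 hN1]
            · rw [mul_pow]
              exact mul_le_mul_of_nonneg_left hsN (by positivity)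
        _ = K * Q ^ 7 := by rw [hK]; ring
        _ ≤ K * q := mul_le_mul_of_nonneg_left
            ((pow_le_pow_right₀ hQ1 (by norm_num : 7 ≤ 8)).trans_eq hQ8) hK0.le
    have h5 := norm_le_norm_add_norm_sub' ((q.totient * congrPairs h (f ^ a) X (N ^ a) q : ℝ) : ℂ)
      (∑ χ ∈ S, cpoly h X χ * conj (cpoly (f ^ a) (N ^ a) χ))
    rw [hsplit, sub_sub_cancel, Complex.norm_real, Real.norm_eq_abs] at h5
    rw [hsplit] at h1
    have h6 := mul_le_mul_of_nonneg_left h2 (Nat.cast_nonneg (α := ℝ) q.totient)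
    linarith [le_abs_self ((q.totient : ℝ) * congrPairs h (f ^ a) X (N ^ a) q)]
  -- the mean value
  have hJ : ∑ χ ∈ S, ‖cpoly f N χ‖ ^ (2 * a) ≤ q * (C * Real.log q ^ g) := by
    refine (sum_le_univ_sum_of_nonneg fun χ => by positivity).trans ?_
    have e : ((∑ χ : DirichletCharacter ℂ q, ‖cpoly f N χ‖ ^ (2 * a) : ℝ) : ℂ) =
        ((q.totient * diag (f ^ a) (f ^ a) (N ^ a) : ℝ) : ℂ) := by
      rw [← congrPairs_self (q := q) hNaq, ← sum_cpoly_conj hq hNaq, Complex.ofReal_sum]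
      refine sum_congr rfl fun χ _ => ?_
      rw [hf, ← cpoly_cutoff_pow, Complex.mul_conj', norm_pow]
      push_cast
      rw [← pow_mul, mul_comm a]
    rw [Complex.ofReal_inj.1 e]
    refine mul_le_mul (Nat.cast_le.2 (Nat.totient_le q)) ?_ (sum_nonneg fun n _ =>
      div_nonneg (mul_nonneg (pow_nonneg_apply hf0 a n) (pow_nonneg_apply hf0 a n))
        (Nat.cast_nonneg n)) hq0.le
    have h2 : 2 ≤ N ^ a := hN2.trans (Nat.le_self_pow (by omega) N)
    refine le_trans ?_ ((hC (N ^ a) h2).trans (mul_le_mul_of_nonneg_left (Real.rpow_le_rpow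
      (Real.log_natCast_nonneg _) (Real.log_le_log (Nat.cast_pos.2 (by omega))
        (Nat.cast_le.2 hNaq.le)) (by linarith)) hC0.le))
    refine sum_le_sum fun n _ => ?_
    have h3 : (f ^ a) n ≤ (sqfWeight u ^ a) n := pow_mono_apply hf0
      (fun k => hf ▸ (cutoff_le (sqfWeight_nonneg hu0) N k).2) a n
    rw [sq]
    exact div_le_div_of_nonneg_right (mul_self_le_mul_self (pow_nonneg_apply hf0 a n) h3)
      (Nat.cast_nonneg n)
  -- pointwise
  have hpt : ∀ χ ∈ S, ‖cpoly (cutoff (ArithmeticFunction.zeta : ArithmeticFunction ℝ) M) M χ‖ *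
      ‖cpoly f N χ‖ ^ (2 * a - d) ≤ 2 * ε * ‖cpoly f N χ‖ ^ (2 * a) +
        (E * ‖LFunction χ (1 / 2)‖ ^ (2 * k) + ε * (10 / ε) ^ (2 * k)) := by
    intro χ hχ
    obtain ⟨z, hz⟩ : ∃ z, z = ‖LFunction χ (1 / 2)‖ := ⟨_, rfl⟩
    have hz0 : 0 ≤ z := hz ▸ norm_nonneg _
    have hM1 : 1 ≤ M := by omega
    have herr : 2 * pvBound q / √(M : ℝ) ≤ 10 := by
      have hs : Q ^ 6 ≤ √(M : ℝ) := Real.le_sqrt_of_sq_le (by rw [← pow_mul]; exact hMlo)
      have hl : Real.log q ≤ 4 * Q ^ 2 := by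
        rw [← hQ8, Real.log_pow]
        have := Real.log_le_sub_one_of_pos (show 0 < Q by linarith)
        push_cast
        nlinarith
      have hsq : √(q : ℝ) = Q ^ 4 := by
        rw [← hQ8, show Q ^ 8 = (Q ^ 4) ^ 2 by ring, Real.sqrt_sq (by positivity)]
      rw [div_le_iff₀ (by linarith [one_le_pow₀ (n := 6) hQ1]), pvBound, hsq]
      have h2 : 1 ≤ Q ^ 2 := one_le_pow₀ hQ1
      nlinarith [mul_le_mul_of_nonneg_left (add_le_add h2 hl) (show 0 ≤ Q ^ 4 by positivity)]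
    have hls : ‖cpoly (cutoff (ArithmeticFunction.zeta : ArithmeticFunction ℝ) M) M χ‖ ≤
        z + 10 := by
      have h1 := norm_le_norm_add_norm_sub'
        (cpoly (cutoff (ArithmeticFunction.zeta : ArithmeticFunction ℝ) M) M χ)
        (LFunction χ (1 / 2))
      rw [norm_sub_rev, ← hz] at h1
      linarith [norm_lfunction_sub_le hq (hSne χ hχ) hM1]
    rw [← hz]
    have e1 : E * z ^ (2 * k) = ε * (z / ε) ^ (2 * k) := by
      rw [hE, mul_assoc, ← Real.mul_rpow (by positivity) hz0, one_div_mul_eq_div]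
    rw [e1]
    refine (mul_le_mul_of_nonneg_right hls (by positivity)).trans ?_
    rw [add_mul]
    refine (add_le_add (mul_pow_le hd hda hε0 (norm_nonneg (cpoly f N χ)) hz0)
      (mul_pow_le hd hda hε0 (norm_nonneg (cpoly f N χ))
        (show (0 : ℝ) ≤ 10 by norm_num))).trans (le_of_eq ?_)
    rw [← hk]
    ring
  have hmono := sum_le_sum hpt
  rw [sum_add_distrib, sum_add_distrib, ← mul_sum, ← mul_sum, sum_const, nsmul_eq_mul] at hmono
  -- the end
  rw [← hg]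
  have hlg : Real.log q ≤ Real.log q ^ g :=
    le_of_eq_of_le (Real.rpow_one _).symm (Real.rpow_le_rpow_of_exponent_le hl1 hg1)
  have hφ : (q : ℝ) / 2 ≤ q.totient := by
    rw [Nat.totient_prime hq, Nat.cast_sub hq.one_le, Nat.cast_one]
    linarith
  have h9 := mul_le_mul_of_nonneg_left hJ (show 0 ≤ 2 * ε by positivity)
  have h10 : 2 * ε * C = c' / 8 := by rw [hε]; field_simp; ring
  have h11 : E' * q ≤ c' / 8 * (q * Real.log q ^ g) := by
    rw [div_le_iff₀ hc'0] at hlE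
    nlinarith [mul_le_mul_of_nonneg_left (mul_le_mul_of_nonneg_left hlg hq0.le) hc'0.le,
      mul_le_mul_of_nonneg_right hlE hq0.le]
  have h12 := mul_le_mul_of_nonneg_right hScard (show 0 ≤ ε * (10 / ε) ^ (2 * k) by positivity)
  have h13 := mul_le_mul_of_nonneg_right hφ (show 0 ≤ c' * Real.log q ^ g by positivity)
  rw [show 2 * ε * ((q : ℝ) * (C * Real.log q ^ g)) =
    2 * ε * C * ((q : ℝ) * Real.log q ^ g) by ring, h10] at h9
  rw [hE'] at h11
  rw [div_mul_eq_mul_div, div_mul_eq_mul_div, div_le_iff₀ (by positivity)]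
  nlinarith

omit [NeZero q] in
/-- Every real exponent `≥ 1`, up to `ε` in the exponent of `log q`. -/
theorem exists_char_moment_lower_real {k ε : ℝ} (hk : 1 ≤ k) (hε : 0 < ε) :
    ∃ c, 0 < c ∧ ∀ᶠ q : ℕ in atTop, ∀ _ : NeZero q, q.Prime →
      c * q * Real.log q ^ (k ^ 2 - ε) ≤
        ∑ χ ∈ {χ : DirichletCharacter ℂ q | χ ≠ 1}, ‖LFunction χ (1 / 2)‖ ^ (2 * k) := by
  obtain ⟨a, d, hd, hda, hle, hge⟩ : ∃ a d : ℕ, 0 < d ∧ d ≤ a ∧ (a : ℝ) / d ≤ k ∧
      k - ε / k ≤ (a : ℝ) / d := by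
    obtain ⟨d, hd⟩ := exists_nat_gt (max 1 (k / ε))
    rw [max_lt_iff] at hd
    have hd0 : (0 : ℝ) < d := by linarith
    refine ⟨⌊k * d⌋₊, d, Nat.cast_pos.1 hd0, Nat.le_floor (le_mul_of_one_le_left hd0.le hk),
      (div_le_iff₀ hd0).2 (Nat.floor_le (by positivity)), ?_⟩
    rw [le_div_iff₀ hd0]
    have h1 : 1 ≤ ε / k * d := by
      rw [div_mul_eq_mul_div, le_div_iff₀ (by linarith)]
      have := (div_lt_iff₀ hε).1 hd.2
      linarith
    linarith [Nat.lt_floor_add_one (k * (d : ℝ))]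
  obtain ⟨r, hr⟩ : ∃ r, r = (a : ℝ) / d := ⟨_, rfl⟩
  rw [← hr] at hle hge
  have hr1 : 1 ≤ r := hr ▸ (one_le_div (Nat.cast_pos.2 hd)).2 (Nat.cast_le.2 hda)
  obtain ⟨c, hc0, hc⟩ := exists_char_moment_lower hd hda
  rw [← hr] at hc
  refine ⟨(c / 2) ^ (k / r), by positivity, ?_⟩
  filter_upwards [hc, eventually_ge_atTop 3, (Real.tendsto_log_atTop.comp
    tendsto_natCast_atTop_atTop).eventually_ge_atTop 1] with q hT hq3 hl hne hq
  have : NeZero q := hne
  simp only [Function.comp_apply] at hl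
  have hT' := hT hne hq
  have hq0 : (0 : ℝ) < q := Nat.cast_pos.2 (by omega)
  obtain ⟨L, hL⟩ : ∃ L, L = c / 2 * Real.log q ^ (r ^ 2) := ⟨_, rfl⟩
  have hL0 : 0 < L := hL ▸ by positivity
  have hpt : ∀ χ : DirichletCharacter ℂ q, ‖LFunction χ (1 / 2)‖ ^ (2 * r) ≤
      L + L ^ (1 - k / r) * ‖LFunction χ (1 / 2)‖ ^ (2 * k) := by
    intro χ
    obtain ⟨w, hw⟩ : ∃ w, w = ‖LFunction χ (1 / 2)‖ ^ (2 * r) := ⟨_, rfl⟩
    have hw0 : 0 ≤ w := hw ▸ Real.rpow_nonneg (norm_nonneg _) _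
    have e : ‖LFunction χ (1 / 2)‖ ^ (2 * k) = w ^ (k / r) := by
      rw [hw, ← Real.rpow_mul (norm_nonneg _)]
      congr 1
      field_simp
    rw [e, ← hw]
    rcases le_or_gt w L with h | h
    · exact h.trans (le_add_of_nonneg_right (by positivity))
    · refine le_trans ?_ (le_add_of_nonneg_left hL0.le)
      have hwp : 0 < w := hL0.trans h
      calc w = w ^ (1 - k / r) * w ^ (k / r) := by
            rw [← Real.rpow_add hwp, sub_add_cancel, Real.rpow_one]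
        _ ≤ L ^ (1 - k / r) * w ^ (k / r) := mul_le_mul_of_nonneg_right
            (Real.rpow_le_rpow_of_nonpos hL0 h.le
              (by linarith [(one_le_div (show 0 < r by linarith)).2 hle])) (by positivity)
  have hmono := sum_le_sum (s := ({χ : DirichletCharacter ℂ q | χ ≠ 1} : Finset _))
    fun χ _ => hpt χ
  rw [sum_add_distrib, sum_const, nsmul_eq_mul, ← mul_sum] at hmono
  obtain ⟨J, hJ⟩ : ∃ J, J = ∑ χ ∈ {χ : DirichletCharacter ℂ q | χ ≠ 1},
      ‖LFunction χ (1 / 2)‖ ^ (2 * k) := ⟨_, rfl⟩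
  rw [← hJ] at hmono ⊢
  have hcard : (#({χ : DirichletCharacter ℂ q | χ ≠ 1} : Finset _) : ℝ) ≤ q := by
    refine Nat.cast_le.2 ((card_le_univ _).trans (le_of_eq_of_le ?_ (Nat.totient_le q)))
    rw [← Nat.card_eq_fintype_card,
      DirichletCharacter.card_eq_totient_of_hasEnoughRootsOfUnity ℂ q]
  have h1 : (q : ℝ) * L ≤ L ^ (1 - k / r) * J := by
    have : c * q * Real.log q ^ r ^ 2 = 2 * ((q : ℝ) * L) := by rw [hL]; ring
    linarith [mul_le_mul_of_nonneg_right hcard hL0.le]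
  have h2 : (q : ℝ) * L ^ (k / r) ≤ J := by
    refine le_of_mul_le_mul_left ?_ (Real.rpow_pos_of_pos hL0 (1 - k / r))
    rwa [mul_left_comm, ← Real.rpow_add hL0, sub_add_cancel, Real.rpow_one]
  refine le_trans ?_ h2
  rw [hL, Real.mul_rpow (by positivity) (by positivity), ← Real.rpow_mul (by linarith),
    mul_comm _ (q : ℝ), mul_assoc]
  refine mul_le_mul_of_nonneg_left (mul_le_mul_of_nonneg_left
    (Real.rpow_le_rpow_of_exponent_le hl ?_) (by positivity)) hq0.le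
  rw [show r ^ 2 * (k / r) = r * k by field_simp]
  nlinarith [mul_le_mul_of_nonneg_right hge (show 0 ≤ k by linarith),
    div_mul_cancel₀ ε (show k ≠ 0 by linarith)]

end FA.MomentLower
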