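import Fermat.Agent.ErdosKac.Model
import Fermat.Agent.ErdosKac.Mertens
import Mathlib.NumberTheory.ArithmeticFunction.Misc
import Mathlib.NumberTheory.ArithmeticFunction.Zeta
import Mathlib.NumberTheory.EulerProduct.Basic

/-!
# The coefficients of a power of a short Dirichlet polynomial

`u ^ ω n` on the squarefree `n`, its convolution powers, and the two Euler product estimates
`∑_{n ≤ X} c n ^ 2 / n ≪ (log X) ^ g` and `∑_{n ≤ N} μ² n g ^ ω n / n ≫ (log N) ^ g`.
-/

set_option autoImplicit false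

noncomputable section

namespace FA.MomentLower

open Finset ArithmeticFunction Filter
open FA.ErdosKac (primesUpTo mem_primesUpTo recipSum exists_abs_recipSum_sub_le
  exists_abs_sum_log_div_sub_le sum_inv_sq_le)

/-- `u ^ ω n` at squarefree `n`, and `0` elsewhere. -/
def sqfWeight (u : ℝ) : ArithmeticFunction ℝ :=
  ⟨fun n => if Squarefree n then u ^ n.primeFactors.card else 0, by simp [not_squarefree_zero]⟩

theorem sqfWeight_apply (u : ℝ) (n : ℕ) :
    sqfWeight u n = if Squarefree n then u ^ n.primeFactors.card else 0 := rfl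

theorem sqfWeight_nonneg {u : ℝ} (hu : 0 ≤ u) (n : ℕ) : 0 ≤ sqfWeight u n := by
  rw [sqfWeight_apply]
  split_ifs <;> positivity

theorem isMultiplicative_sqfWeight (u : ℝ) : (sqfWeight u).IsMultiplicative := by
  refine IsMultiplicative.iff_ne_zero.2 ⟨by simp [sqfWeight_apply], fun {m n} hm hn h => ?_⟩
  simp only [sqfWeight_apply, Nat.squarefree_mul h, Nat.primeFactors_mul hm hn,
    card_union_of_disjoint h.disjoint_primeFactors, pow_add]
  split_ifs <;> simp_all

theorem sqfWeight_prime (u : ℝ) {p : ℕ} (hp : p.Prime) : sqfWeight u p = u := by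
  rw [sqfWeight_apply, if_pos hp.squarefree, hp.primeFactors, card_singleton, pow_one]

theorem sqfWeight_prime_pow (u : ℝ) {p : ℕ} (hp : p.Prime) {j : ℕ} (hj : 2 ≤ j) :
    sqfWeight u (p ^ j) = 0 := by
  rw [sqfWeight_apply, if_neg fun h => ?_]
  have := (Nat.squarefree_pow_iff hp.ne_one (by omega)).1 h
  omega

/-- The restriction to `n ≤ N`. -/
def cutoff (f : ArithmeticFunction ℝ) (N : ℕ) : ArithmeticFunction ℝ :=
  ⟨fun n => if n ≤ N then f n else 0, by simp⟩

theorem cutoff_apply (f : ArithmeticFunction ℝ) (N n : ℕ) :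
    cutoff f N n = if n ≤ N then f n else 0 := rfl

theorem cutoff_le {f : ArithmeticFunction ℝ} (hf : ∀ n, 0 ≤ f n) (N n : ℕ) :
    0 ≤ cutoff f N n ∧ cutoff f N n ≤ f n := by
  rw [cutoff_apply]
  split_ifs
  · exact ⟨hf n, le_rfl⟩
  · exact ⟨le_rfl, hf n⟩

theorem cutoff_of_lt (f : ArithmeticFunction ℝ) {N n : ℕ} (h : N < n) : cutoff f N n = 0 := by
  rw [cutoff_apply, if_neg h.not_ge]

theorem mul_nonneg_apply {f g : ArithmeticFunction ℝ} (hf : ∀ n, 0 ≤ f n) (hg : ∀ n, 0 ≤ g n)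
    (n : ℕ) : 0 ≤ (f * g) n := by
  rw [mul_apply]
  exact sum_nonneg fun x _ => mul_nonneg (hf _) (hg _)

theorem pow_nonneg_apply {f : ArithmeticFunction ℝ} (hf : ∀ n, 0 ≤ f n) (m n : ℕ) :
    0 ≤ (f ^ m) n := by
  induction m generalizing n with
  | zero => rw [pow_zero, one_apply]; split_ifs <;> simp
  | succ m ih => rw [pow_succ]; exact mul_nonneg_apply ih hf n

theorem pow_mono_apply {f g : ArithmeticFunction ℝ} (hf : ∀ n, 0 ≤ f n) (h : ∀ n, f n ≤ g n)
    (m n : ℕ) : (f ^ m) n ≤ (g ^ m) n := by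
  induction m generalizing n with
  | zero => simp
  | succ m ih =>
    rw [pow_succ, pow_succ, mul_apply, mul_apply]
    exact sum_le_sum fun x _ => mul_le_mul (ih _) (h _) (hf _)
      ((pow_nonneg_apply hf m _).trans (ih _))

theorem mul_congr_le {f f' g g' : ArithmeticFunction ℝ} {N : ℕ} (hf : ∀ n ≤ N, f n = f' n)
    (hg : ∀ n ≤ N, g n = g' n) {n : ℕ} (hn : n ≤ N) : (f * g) n = (f' * g') n := by
  rw [mul_apply, mul_apply]
  refine sum_congr rfl fun x hx => ?_
  obtain ⟨hxn, hn0⟩ := Nat.mem_divisorsAntidiagonal.1 hx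
  have h1 : x.1 ≤ n := Nat.le_of_dvd (Nat.pos_of_ne_zero hn0) ⟨x.2, hxn.symm⟩
  have h2 : x.2 ≤ n := Nat.le_of_dvd (Nat.pos_of_ne_zero hn0) ⟨x.1, by rw [mul_comm, hxn]⟩
  rw [hf _ (h1.trans hn), hg _ (h2.trans hn)]

theorem cutoff_pow_apply (f : ArithmeticFunction ℝ) {N : ℕ} (m : ℕ) {n : ℕ} (hn : n ≤ N) :
    (cutoff f N ^ m) n = (f ^ m) n := by
  induction m generalizing n with
  | zero => simp
  | succ m ih =>
    rw [pow_succ, pow_succ]
    exact mul_congr_le (fun k hk => ih hk) (fun k hk => by rw [cutoff_apply, if_pos hk]) hn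

theorem mul_eq_zero_of_lt {f g : ArithmeticFunction ℝ} {X Y : ℕ} (hf : ∀ n, X < n → f n = 0)
    (hg : ∀ n, Y < n → g n = 0) {n : ℕ} (hn : X * Y < n) : (f * g) n = 0 := by
  rw [mul_apply]
  refine sum_eq_zero fun x hx => ?_
  obtain ⟨hxn, -⟩ := Nat.mem_divisorsAntidiagonal.1 hx
  rcases lt_or_ge X x.1 with h | h
  · rw [hf _ h, zero_mul]
  rcases lt_or_ge Y x.2 with h' | h'
  · rw [hg _ h', mul_zero]
  exact absurd (hxn ▸ Nat.mul_le_mul h h') hn.not_ge

theorem cutoff_pow_eq_zero (f : ArithmeticFunction ℝ) (N m : ℕ) {n : ℕ} (hn : N ^ m < n) :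
    (cutoff f N ^ m) n = 0 := by
  induction m generalizing n with
  | zero => rw [pow_zero] at hn ⊢; exact one_apply_ne hn.ne'
  | succ m ih =>
    rw [pow_succ] at hn ⊢
    exact mul_eq_zero_of_lt (fun k hk => ih hk) (fun k hk => cutoff_of_lt f hk) hn

/-- The value of a power at a prime power. -/
theorem pow_sqfWeight_prime_pow (u : ℝ) {p : ℕ} (hp : p.Prime) (m j : ℕ) :
    (sqfWeight u ^ m) (p ^ j) = m.choose j * u ^ j := by
  induction m generalizing j with
  | zero =>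
    rw [pow_zero, one_apply]
    rcases j with - | j
    · simp
    · rw [if_neg fun h => hp.one_lt.ne' (Nat.eq_one_of_dvd_one
        (by rw [← h]; exact dvd_pow_self p j.succ_ne_zero)), Nat.choose_zero_succ]
      simp
  | succ m ih =>
    rcases j with - | j
    · simp [((isMultiplicative_sqfWeight u).pow (k := m + 1)).map_one]
    rw [pow_succ' (sqfWeight u) m, mul_apply, Nat.sum_divisorsAntidiagonal
      (fun a b => sqfWeight u a * (sqfWeight u ^ m) b), Nat.divisors_prime_pow hp, sum_map]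
    simp only [Function.Embedding.coeFn_mk]
    rw [sum_range_succ', sum_range_succ', sum_eq_zero fun i _ => by
      rw [sqfWeight_prime_pow u hp (by omega : 2 ≤ i + 1 + 1), zero_mul]]
    simp only [zero_add, pow_one, pow_zero, Nat.div_one, sqfWeight_prime u hp,
      (isMultiplicative_sqfWeight u).map_one, one_mul]
    rw [pow_succ' p j, Nat.mul_div_cancel_left _ hp.pos, ← pow_succ' p j, ih, ih,
      Nat.choose_succ_succ]
    push_cast
    ring

theorem pow_sqfWeight_prime (u : ℝ) {p : ℕ} (hp : p.Prime) (m : ℕ) :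
    (sqfWeight u ^ m) p = m * u := by
  simpa using pow_sqfWeight_prime_pow u hp m 1

/-- The value of a power at a squarefree number. -/
theorem pow_sqfWeight_squarefree (u : ℝ) (m : ℕ) {n : ℕ} (hn : Squarefree n) :
    (sqfWeight u ^ m) n = ((m : ℝ) * u) ^ n.primeFactors.card := by
  rw [← (isMultiplicative_sqfWeight u).pow.prod_primeFactors hn, prod_congr rfl fun p hp =>
    pow_sqfWeight_prime u (Nat.prime_of_mem_primeFactors hp) m, prod_const]

/-- The convolution with `ζ` at a squarefree number. -/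
theorem zeta_mul_pow_squarefree (u : ℝ) (m : ℕ) {n : ℕ} (hn : Squarefree n) :
    ((ArithmeticFunction.zeta : ArithmeticFunction ℝ) * sqfWeight u ^ m) n =
      ((m : ℝ) * u + 1) ^ n.primeFactors.card := by
  rw [← (isMultiplicative_zeta.natCast.mul (isMultiplicative_sqfWeight u).pow).prod_primeFactors
    hn, prod_congr rfl (g := fun _ => (m : ℝ) * u + 1) fun p hp => ?_, prod_const]
  have hpp := Nat.prime_of_mem_primeFactors hp
  rw [coe_zeta_mul_apply, hpp.sum_divisors, ((isMultiplicative_sqfWeight u).pow).map_one,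
    pow_sqfWeight_prime u hpp m]

/-- **A multiplicative sum against its Euler product.** -/
theorem sum_le_euler {f : ℕ → ℝ} (h1 : f 1 = 1)
    (hmul : ∀ {m n : ℕ}, m.Coprime n → f (m * n) = f m * f n) (hf : ∀ n, 0 ≤ f n) {J : ℕ}
    (hJ : ∀ p : ℕ, p.Prime → ∀ j, J < j → f (p ^ j) = 0) (X : ℕ) :
    ∑ n ∈ Icc 1 X, f n ≤ ∏ p ∈ primesUpTo X, ∑ j ∈ range (J + 1), f (p ^ j) := by
  have ht : ∀ {p : ℕ}, p.Prime →
      ∑' j : ℕ, f (p ^ j) = ∑ j ∈ range (J + 1), f (p ^ j) := fun {p} hp =>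
    tsum_eq_sum fun j hj => hJ p hp j (by rw [mem_range] at hj; omega)
  obtain ⟨hs, hh⟩ := EulerProduct.summable_and_hasSum_factoredNumbers_prod_filter_prime_tsum
    (f := f) h1 hmul (fun {p} hp => summable_of_ne_finset_zero (s := range (J + 1)) fun j hj => by
      rw [hJ p hp j (by rw [mem_range] at hj; omega), norm_zero]) (primesUpTo X)
  have hfil : ((primesUpTo X).filter fun p => p.Prime) = primesUpTo X :=
    filter_true_of_mem fun p hp => (mem_primesUpTo.1 hp).1
  rw [hfil] at hh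
  have hsub : ∀ n ∈ Icc 1 X, n ∈ Nat.factoredNumbers (primesUpTo X) := fun n hn => by
    rw [mem_Icc] at hn
    refine Nat.mem_factoredNumbers.2 ⟨by omega, fun p hp => mem_primesUpTo.2 ?_⟩
    exact ⟨Nat.prime_of_mem_primeFactorsList hp,
      (Nat.le_of_mem_primeFactorsList hp).trans hn.2⟩
  refine le_trans ?_ (le_of_eq (prod_congr rfl fun p hp => ht (mem_primesUpTo.1 hp).1))
  refine le_trans (le_of_eq ?_) (sum_le_hasSum ((Icc 1 X).attach.map
    ⟨fun n => ⟨n.1, hsub n.1 n.2⟩, fun a b h => Subtype.ext (by simpa using h)⟩)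
    (fun n _ => hf _) hh)
  rw [sum_map, ← sum_attach (Icc 1 X)]
  rfl

theorem prod_one_add_le_exp {S : Finset ℕ} (x : ℕ → ℝ) (hx : ∀ p ∈ S, 0 ≤ 1 + x p) :
    ∏ p ∈ S, (1 + x p) ≤ Real.exp (∑ p ∈ S, x p) := by
  rw [Real.exp_sum]
  exact prod_le_prod hx fun p _ => by linarith [Real.add_one_le_exp (x p)]

/-- **The upper bound for the mean square of the coefficients.** -/
theorem exists_sum_sq_div_le (u : ℝ) (m : ℕ) : ∃ C, 0 < C ∧ ∀ X : ℕ, 2 ≤ X →
    ∑ n ∈ Icc 1 X, (sqfWeight u ^ m) n ^ 2 / n ≤ C * Real.log X ^ (((m : ℝ) * u) ^ 2) := by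
  obtain ⟨g, hg⟩ : ∃ g, g = ((m : ℝ) * u) ^ 2 := ⟨_, rfl⟩
  obtain ⟨B, hB⟩ : ∃ B, B = ∑ j ∈ range (m + 1), ((m.choose j : ℝ) * u ^ j) ^ 2 := ⟨_, rfl⟩
  have hB0 : 0 ≤ B := hB ▸ sum_nonneg fun j _ => sq_nonneg _
  have hg0 : 0 ≤ g := hg ▸ sq_nonneg _
  obtain ⟨C, hC⟩ := exists_abs_recipSum_sub_le
  refine ⟨Real.exp (g * |C| + B), Real.exp_pos _, fun X hX => ?_⟩
  rw [← hg]
  have hw := (isMultiplicative_sqfWeight u).pow (k := m)
  refine (sum_le_euler (f := fun n => (sqfWeight u ^ m) n ^ 2 / n) (J := m)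
    (by simp [hw.map_one]) (fun {a b} hab => by
      rw [hw.map_mul_of_coprime hab, Nat.cast_mul, mul_pow, mul_div_mul_comm])
    (fun n => div_nonneg (sq_nonneg _) (Nat.cast_nonneg n))
    (fun p hp j hj => by
      rw [pow_sqfWeight_prime_pow u hp, Nat.choose_eq_zero_of_lt hj]; simp) X).trans ?_
  have hterm : ∀ p ∈ primesUpTo X,
      ∑ j ∈ range (m + 1), (sqfWeight u ^ m) (p ^ j) ^ 2 / ((p ^ j : ℕ) : ℝ) ≤
        1 + (g / p + B * ((p : ℝ)⁻¹) ^ 2) := by
    intro p hp
    have hpp := (mem_primesUpTo.1 hp).1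
    have hp1 : (1 : ℝ) ≤ p := Nat.one_le_cast.2 hpp.one_le
    have hp0 : (0 : ℝ) < p := by linarith
    rw [hB, sum_mul, ← add_assoc]
    rcases m with - | m
    · have : (0 : ℝ) ≤ g / p := by positivity
      have h1 : (sqfWeight u ^ 0) (p ^ 0) = 1 := by simp
      rw [sum_range_one, sum_range_one, h1]
      simp only [pow_zero, Nat.choose_zero_right, Nat.cast_one, one_mul, one_pow, div_one]
      linarith [sq_nonneg ((p : ℝ)⁻¹)]
    rw [sum_range_succ', sum_range_succ', sum_range_succ', sum_range_succ']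
    simp only [pow_sqfWeight_prime_pow u hpp, zero_add, pow_one, Nat.choose_one_right,
      pow_zero, Nat.choose_zero_right, Nat.cast_one, one_mul, mul_one, one_pow, div_one,
      pow_sqfWeight_prime u hpp, hw.map_one]
    have htail : ∀ i ∈ range m,
        (((m + 1).choose (i + 1 + 1) : ℝ) * u ^ (i + 1 + 1)) ^ 2 / ((p ^ (i + 1 + 1) : ℕ) : ℝ) ≤
          (((m + 1).choose (i + 1 + 1) : ℝ) * u ^ (i + 1 + 1)) ^ 2 * ((p : ℝ)⁻¹) ^ 2 := by
      intro i _
      rw [Nat.cast_pow, div_eq_mul_inv, inv_pow]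
      exact mul_le_mul_of_nonneg_left (inv_anti₀ (by positivity)
        (pow_le_pow_right₀ hp1 (by omega))) (sq_nonneg _)
    rw [hg]
    have := sum_le_sum htail
    have e1 : 0 ≤ (((m : ℝ) + 1) * u) ^ 2 * ((p : ℝ)⁻¹) ^ 2 := by positivity
    have e2 : 0 ≤ ((p : ℝ)⁻¹) ^ 2 := by positivity
    push_cast at this ⊢
    linarith
  refine (prod_le_prod (fun p _ => sum_nonneg fun j _ =>
    div_nonneg (sq_nonneg _) (Nat.cast_nonneg _)) hterm).trans
    ((prod_one_add_le_exp _ fun p _ => by positivity).trans ?_)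
  have hP : ∀ p ∈ primesUpTo X, p.Prime := fun p hp => (mem_primesUpTo.1 hp).1
  have hl : 0 < Real.log X := Real.log_pos (Nat.one_lt_cast.2 (by omega))
  rw [Real.rpow_def_of_pos hl, ← Real.exp_add, Real.exp_le_exp, sum_add_distrib, ← mul_sum]
  have hr : ∑ p ∈ primesUpTo X, g / p = g * recipSum X := by
    rw [recipSum, mul_sum]
    exact sum_congr rfl fun p _ => div_eq_mul_inv _ _
  rw [hr]
  have h1 := (abs_le.1 (hC X hX)).2
  nlinarith [mul_le_mul_of_nonneg_left (h1.trans (le_abs_self C)) hg0,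
    mul_le_mul_of_nonneg_left (sum_inv_sq_le _ hP) hB0]

/-- **The lower bound** (Rankin's trick). -/
theorem exists_le_sum_squarefree {g : ℝ} (hg : 0 ≤ g) : ∃ c, 0 < c ∧ ∀ᶠ N : ℕ in atTop,
    c * Real.log N ^ g ≤ ∑ n ∈ (Icc 1 N).filter Squarefree,
      g ^ n.primeFactors.card / n := by
  obtain ⟨C₁, hC₁⟩ := exists_abs_recipSum_sub_le
  obtain ⟨C₂, hC₂⟩ := exists_abs_sum_log_div_sub_le
  obtain ⟨D, hD⟩ : ∃ D, D = g * (Real.exp 1 * (1 + |C₂| / Real.log 2)) := ⟨_, rfl⟩
  obtain ⟨K, hK1, hK⟩ : ∃ K : ℝ, 1 ≤ K ∧ Real.exp (D - K) ≤ 1 / 2 := by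
    refine ⟨max 1 (D + Real.log 2), le_max_left _ _, ?_⟩
    rw [← Real.exp_log (show (0 : ℝ) < 1 / 2 by norm_num), Real.exp_le_exp, one_div,
      Real.log_inv]
    linarith [le_max_right 1 (D + Real.log 2)]
  refine ⟨1 / 2 * Real.exp (-(g * |C₁| + g ^ 2)) * (1 / (2 * K)) ^ g, by positivity, ?_⟩
  have hl2 : (0 : ℝ) < Real.log 2 := Real.log_pos one_lt_two
  filter_upwards [(Real.tendsto_log_atTop.comp tendsto_natCast_atTop_atTop).eventually_ge_atTop
    (2 * K * Real.log 2 + 2 * K), eventually_ge_atTop 2] with N hN hN2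
  simp only [Function.comp_apply] at hN
  obtain ⟨y, hy⟩ : ∃ y, y = ⌊Real.exp (Real.log N / K)⌋₊ := ⟨_, rfl⟩
  have hNK : Real.log 2 + 1 ≤ Real.log N / (2 * K) := by
    rw [le_div_iff₀ (by positivity)]; linarith
  have hLK : Real.log N / (2 * K) + Real.log 2 ≤ Real.log N / K := by
    rw [show Real.log N / (2 * K) = Real.log N / K / 2 by field_simp] at hNK ⊢
    linarith
  have hylo : Real.exp (Real.log N / K) / 2 ≤ (y : ℝ) := by
    have := Nat.lt_floor_add_one (Real.exp (Real.log N / K))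
    have h2 : 2 ≤ Real.exp (Real.log N / K) := by
      refine le_of_eq_of_le (Real.exp_log two_pos).symm (Real.exp_le_exp.2 ?_)
      linarith
    rw [← hy] at this
    linarith
  have hy2 : 2 ≤ y := by
    rw [hy]
    refine Nat.le_floor ?_
    push_cast
    refine le_of_eq_of_le (Real.exp_log two_pos).symm (Real.exp_le_exp.2 ?_)
    linarith
  have hy0 : (0 : ℝ) < y := Nat.cast_pos.2 (by omega)
  have hly1 : Real.log y ≤ Real.log N / K := by
    rw [Real.log_le_iff_le_exp hy0, hy]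
    exact Nat.floor_le (Real.exp_pos _).le
  have hly2 : Real.log N / (2 * K) ≤ Real.log y := by
    have := Real.log_le_log (by positivity) hylo
    rw [Real.log_div (Real.exp_pos _).ne' two_ne_zero, Real.log_exp] at this
    linarith
  have hly0 : 0 < Real.log y := by linarith
  obtain ⟨α, hα⟩ : ∃ α, α = 1 / Real.log y := ⟨_, rfl⟩
  have hα0 : 0 < α := hα ▸ by positivity
  have hP : ∀ p ∈ primesUpTo y, p.Prime := fun p hp => (mem_primesUpTo.1 hp).1
  obtain ⟨F, hF⟩ : ∃ F : Finset ℕ → ℝ, F = fun s => ∏ p ∈ s, g / (p : ℕ) := ⟨_, rfl⟩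
  have hF0 : ∀ s, 0 ≤ F s := fun s => hF ▸ prod_nonneg fun p _ => by positivity
  -- the subsets with product at most `N`
  have hsmall : ∑ s ∈ (primesUpTo y).powerset.filter (fun s => ∏ p ∈ s, p ≤ N), F s ≤
      ∑ n ∈ (Icc 1 N).filter Squarefree, g ^ n.primeFactors.card / n := by
    refine le_trans (le_of_eq ?_) (sum_le_sum_of_subset_of_nonneg
      (s := ((primesUpTo y).powerset.filter fun s => ∏ p ∈ s, p ≤ N).image
        fun s => ∏ p ∈ s, p) ?_ fun n _ _ => by positivity)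
    · rw [sum_image fun s hs t ht h => ?_]
      · refine sum_congr rfl fun s hs => ?_
        have hsP := fun p hp => hP p (mem_powerset.1 (mem_filter.1 hs).1 hp)
        rw [Nat.primeFactors_prod hsP, hF, Nat.cast_prod]
        simp only [prod_div_distrib, prod_const]
      · rw [← Nat.primeFactors_prod fun p hp => hP p (mem_powerset.1 (mem_filter.1 hs).1 hp), h,
          Nat.primeFactors_prod fun p hp => hP p (mem_powerset.1 (mem_filter.1 ht).1 hp)]
    · intro n hn
      obtain ⟨s, hs, rfl⟩ := mem_image.1 hn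
      have hsP := fun p hp => hP p (mem_powerset.1 (mem_filter.1 hs).1 hp)
      refine mem_filter.2 ⟨mem_Icc.2 ⟨one_le_prod' fun p hp => (hsP p hp).one_le,
        (mem_filter.1 hs).2⟩, ?_⟩
      exact Finset.squarefree_prod_of_pairwise_isCoprime (fun p hp q hq hne =>
        Nat.coprime_iff_isRelPrime.1 ((Nat.coprime_primes (hsP p hp) (hsP q hq)).2 hne))
        fun p hp => (hsP p hp).squarefree
  refine le_trans ?_ hsmall
  have hall : ∏ p ∈ primesUpTo y, (1 + g / (p : ℝ)) = ∑ s ∈ (primesUpTo y).powerset, F s := by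
    rw [prod_one_add, hF]
  have hNα : Real.exp K ≤ (N : ℝ) ^ α := by
    rw [Real.rpow_def_of_pos (Nat.cast_pos.2 (by omega)), Real.exp_le_exp, hα, mul_one_div,
      le_div_iff₀ hly0]
    rw [le_div_iff₀ (by linarith)] at hly1
    linarith
  have hrest : ∑ s ∈ (primesUpTo y).powerset.filter (fun s => ¬∏ p ∈ s, p ≤ N), F s ≤
      Real.exp (-K) * ∏ p ∈ primesUpTo y, (1 + (p : ℝ) ^ α * (g / p)) := by
    rw [prod_one_add, mul_sum]
    refine (sum_le_sum fun s hs => ?_).trans (sum_le_sum_of_subset_of_nonneg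
      (filter_subset _ _) fun s _ _ => mul_nonneg (Real.exp_pos _).le
        (prod_nonneg fun p _ => by positivity))
    have hgt : (N : ℝ) ≤ ((∏ p ∈ s, p : ℕ) : ℝ) :=
      Nat.cast_le.2 (not_le.1 (mem_filter.1 hs).2).le
    have h1 : Real.exp K ≤ ∏ p ∈ s, (p : ℝ) ^ α := by
      rw [Real.finsetProd_rpow _ _ (fun p _ => Nat.cast_nonneg p), ← Nat.cast_prod]
      exact hNα.trans (Real.rpow_le_rpow (Nat.cast_nonneg N) hgt hα0.le)
    rw [prod_mul_distrib, hF, ← mul_assoc, Real.exp_neg]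
    refine le_mul_of_one_le_left (prod_nonneg fun p _ => by positivity) ?_
    rw [inv_mul_eq_div, one_le_div (Real.exp_pos K)]
    exact h1
  have hratio : ∏ p ∈ primesUpTo y, (1 + (p : ℝ) ^ α * (g / p)) ≤
      Real.exp D * ∏ p ∈ primesUpTo y, (1 + g / (p : ℝ)) := by
    have hstep : ∀ p ∈ primesUpTo y, 1 + (p : ℝ) ^ α * (g / p) ≤
        Real.exp (g * Real.exp 1 * α * (Real.log p / p)) * (1 + g / (p : ℝ)) := by
      intro p hp
      obtain ⟨hpp, hpy⟩ := mem_primesUpTo.1 hp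
      have hp0 : (0 : ℝ) < p := Nat.cast_pos.2 hpp.pos
      have hlp : 0 ≤ Real.log p := Real.log_natCast_nonneg p
      have hx1 : Real.log p * α ≤ 1 := by
        rw [hα, mul_one_div, div_le_one hly0]
        exact Real.log_le_log hp0 (Nat.cast_le.2 hpy)
      obtain ⟨x, hx⟩ : ∃ x, x = Real.log p * α := ⟨_, rfl⟩
      have hx0 : 0 ≤ x := hx ▸ mul_nonneg hlp hα0.le
      have e1 : (p : ℝ) ^ α - 1 ≤ x * Real.exp 1 := by
        rw [Real.rpow_def_of_pos hp0, ← hx]
        have h2 := mul_le_mul_of_nonneg_left (Real.add_one_le_exp (-x)) (Real.exp_pos x).le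
        rw [← Real.exp_add, add_neg_cancel, Real.exp_zero] at h2
        have h3 := mul_le_mul_of_nonneg_left (Real.exp_le_exp.2 (hx ▸ hx1)) hx0
        nlinarith
      obtain ⟨a, ha⟩ : ∃ a, a = g / (p : ℝ) := ⟨_, rfl⟩
      have ha0 : 0 ≤ a := ha ▸ by positivity
      have h4 := Real.add_one_le_exp (a * (x * Real.exp 1))
      rw [show g * Real.exp 1 * α * (Real.log p / p) = a * (x * Real.exp 1) by
        rw [ha, hx]; ring, ← ha]
      nlinarith [mul_le_mul_of_nonneg_left e1 ha0, mul_le_mul_of_nonneg_right h4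
        (show (0 : ℝ) ≤ 1 + a by linarith), mul_nonneg ha0 (mul_nonneg ha0
        (mul_nonneg hx0 (Real.exp_pos 1).le))]
    refine (prod_le_prod (fun p _ => by positivity) hstep).trans ?_
    rw [prod_mul_distrib, ← Real.exp_sum, ← mul_sum]
    refine mul_le_mul_of_nonneg_right (Real.exp_le_exp.2 ?_) (prod_nonneg fun p _ => by positivity)
    have h5 := (abs_le.1 (hC₂ y (by omega))).2
    have h6 : ∑ p ∈ primesUpTo y, Real.log p / p ≤ Real.log y * (1 + |C₂| / Real.log 2) := by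
      have h7 : |C₂| ≤ |C₂| / Real.log 2 * Real.log y := by
        rw [div_mul_eq_mul_div, le_div_iff₀ hl2]
        exact mul_le_mul_of_nonneg_left
          (Real.log_le_log two_pos (Nat.ofNat_le_cast.2 hy2)) (abs_nonneg _)
      linarith [le_abs_self C₂]
    refine (mul_le_mul_of_nonneg_left h6 (by positivity)).trans (le_of_eq ?_)
    rw [hD, hα]
    field_simp
  have hsplit := sum_filter_add_sum_filter_not (primesUpTo y).powerset
    (fun s => ∏ p ∈ s, p ≤ N) F
  rw [← hall] at hsplit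
  have hprod0 : 0 ≤ ∏ p ∈ primesUpTo y, (1 + g / (p : ℝ)) := prod_nonneg fun p _ => by positivity
  have hrest' : Real.exp (-K) * ∏ p ∈ primesUpTo y, (1 + (p : ℝ) ^ α * (g / p)) ≤
      1 / 2 * ∏ p ∈ primesUpTo y, (1 + g / (p : ℝ)) := by
    refine (mul_le_mul_of_nonneg_left hratio (Real.exp_pos _).le).trans ?_
    rw [← mul_assoc, ← Real.exp_add, neg_add_eq_sub]
    exact mul_le_mul_of_nonneg_right hK hprod0
  refine le_trans ?_ (show 1 / 2 * ∏ p ∈ primesUpTo y, (1 + g / (p : ℝ)) ≤ _ by linarith)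
  rw [mul_assoc (1 / 2 : ℝ), mul_assoc (1 / 2 : ℝ)]
  refine mul_le_mul_of_nonneg_left ?_ (by norm_num)
  -- the full product
  have hlow : Real.exp (g * recipSum y - g ^ 2) ≤ ∏ p ∈ primesUpTo y, (1 + g / (p : ℝ)) := by
    rw [← Real.exp_log (prod_pos fun (p : ℕ) _ => show 0 < 1 + g / (p : ℝ) by positivity),
      Real.exp_le_exp, Real.log_prod fun (p : ℕ) _ => (show 0 < 1 + g / (p : ℝ) by positivity).ne']
    have hterm : ∀ p ∈ primesUpTo y,
        g * (p : ℝ)⁻¹ - g ^ 2 * ((p : ℝ)⁻¹) ^ 2 ≤ Real.log (1 + g / p) := by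
      intro p _
      obtain ⟨a, ha⟩ : ∃ a, a = g * (p : ℝ)⁻¹ := ⟨_, rfl⟩
      have ha0 : 0 ≤ a := ha ▸ by positivity
      rw [div_eq_mul_inv, ← mul_pow, ← ha]
      refine le_trans ?_ (Real.one_sub_inv_le_log_of_pos (show 0 < 1 + a by linarith))
      rw [inv_eq_one_div, one_sub_div (by linarith), le_div_iff₀ (by linarith)]
      nlinarith [mul_nonneg ha0 (mul_nonneg ha0 ha0)]
    refine le_trans ?_ (sum_le_sum hterm)
    rw [sum_sub_distrib, ← mul_sum, ← mul_sum, ← recipSum]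
    nlinarith [mul_le_mul_of_nonneg_left (sum_inv_sq_le _ hP) (sq_nonneg g)]
  refine le_trans ?_ hlow
  have h7 := (abs_le.1 (hC₁ y hy2)).1
  rw [mul_assoc, ← Real.mul_rpow (by positivity) (Real.log_natCast_nonneg N),
    one_div_mul_eq_div]
  refine (mul_le_mul_of_nonneg_left (Real.rpow_le_rpow (by positivity) hly2 hg)
    (Real.exp_pos _).le).trans ?_
  rw [Real.rpow_def_of_pos hly0, ← Real.exp_add, Real.exp_le_exp]
  nlinarith [mul_le_mul_of_nonneg_left (show Real.log (Real.log y) - |C₁| ≤ recipSum y by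
    linarith [le_abs_self C₁]) hg]

end FA.MomentLower
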