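import Fermat.Agent.MomentLower.Poly
import Fermat.Agent.SecondMoment.Main

/-!
# Lower bounds for the moments of `ζ` on the critical line

After Rudnick and Soundararajan: for `k = a / d ≥ 1` the Dirichlet polynomial `A` of length
`T ^ (1 / (8 a))` with coefficients `d ^ (-ω n)` on the squarefree `n` makes
`∫ ζ A ^ (a - d) conj A ^ a` and `∫ ‖A‖ ^ (2 a)` both of the size `T (log T) ^ (k²)`, only the
diagonal counting, and the pointwise inequality `z x ^ (2a - d) ≤ ε (x ^ (2a) + (z / ε) ^ (2k))`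
replaces Hölder's.
-/

set_option autoImplicit false

noncomputable section

namespace FA.MomentLower

open Finset ArithmeticFunction MeasureTheory Filter
open FA.SecondMoment (lineSum truncErr norm_truncErr_le continuous_lineSum continuous_zeta_line)
open FA.Resonance (lineSum_eq_wave sum_inv_sqrt_le)
open scoped ComplexConjugate Topology

/-- **The inequality in place of Hölder's.** -/
theorem mul_pow_le {a d : ℕ} (hd : 0 < d) (hda : d ≤ a) {ε x z : ℝ} (hε : 0 < ε) (hx : 0 ≤ x)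
    (hz : 0 ≤ z) :
    z * x ^ (2 * a - d) ≤ ε * (x ^ (2 * a) + (z / ε) ^ (2 * ((a : ℝ) / d))) := by
  have hw : 0 ≤ z / ε := by positivity
  have hd' : (0 : ℝ) < d := Nat.cast_pos.2 hd
  rcases le_or_gt z (ε * x ^ d) with h | h
  · calc z * x ^ (2 * a - d) ≤ ε * x ^ d * x ^ (2 * a - d) :=
          mul_le_mul_of_nonneg_right h (pow_nonneg hx _)
      _ = ε * x ^ (2 * a) := by
          rw [mul_assoc, ← pow_add, show d + (2 * a - d) = 2 * a by omega]
      _ ≤ _ := mul_le_mul_of_nonneg_left (le_add_of_nonneg_right (Real.rpow_nonneg hw _)) hε.le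
  · have hx1 : x ≤ (z / ε) ^ ((1 : ℝ) / d) := by
      refine le_of_pow_le_pow_left₀ hd.ne' (Real.rpow_nonneg hw _) ?_
      rw [← Real.rpow_natCast (_ ^ _), ← Real.rpow_mul hw, div_mul_cancel₀ _ hd'.ne',
        Real.rpow_one, le_div_iff₀ hε, mul_comm]
      exact h.le
    have hexp : 1 + (1 : ℝ) / d * ((2 * a - d : ℕ) : ℝ) = 2 * ((a : ℝ) / d) := by
      rw [Nat.cast_sub (by omega)]
      push_cast
      field_simp
      ring
    have hpow : ((z / ε) ^ ((1 : ℝ) / d)) ^ (2 * a - d) =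
        (z / ε) ^ ((1 : ℝ) / d * ((2 * a - d : ℕ) : ℝ)) := by
      rw [← Real.rpow_natCast, ← Real.rpow_mul hw]
    calc z * x ^ (2 * a - d) ≤ z * ((z / ε) ^ ((1 : ℝ) / d)) ^ (2 * a - d) :=
          mul_le_mul_of_nonneg_left (pow_le_pow_left₀ hx hx1 _) hz
      _ = ε * (z / ε) ^ (2 * ((a : ℝ) / d)) := by
          rw [hpow, ← hexp, Real.rpow_add' hw
            (by rw [hexp]; have : (0 : ℝ) < a := Nat.cast_pos.2 (by omega); positivity),
            Real.rpow_one,
            ← mul_assoc, mul_div_cancel₀ z hε.ne']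
      _ ≤ _ := mul_le_mul_of_nonneg_left (le_add_of_nonneg_left (pow_nonneg hx _)) hε.le

/-- The size of the coefficients of `A` at `t = 0`. -/
theorem mass_cutoff_le {f : ArithmeticFunction ℝ} (hf : ∀ n, f n ≤ 1) (N : ℕ) :
    mass (cutoff f N) N ≤ 2 * √(N : ℝ) := by
  refine (sum_le_sum fun n hn => ?_).trans (sum_inv_sqrt_le N)
  rw [cutoff_apply, if_pos (mem_Icc.1 hn).2]
  exact div_le_div_of_nonneg_right (hf n) (Real.sqrt_nonneg _)

theorem sqfWeight_le_one {u : ℝ} (hu : 0 ≤ u) (hu1 : u ≤ 1) (n : ℕ) : sqfWeight u n ≤ 1 := by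
  rw [sqfWeight_apply]
  split_ifs
  · exact pow_le_one₀ hu hu1
  · exact zero_le_one

/-- The diagonal against `ζ`. -/
theorem le_diag_zeta {a d N M : ℕ} (hd : 0 < d) (hda : d ≤ a) (hNM : N ≤ M) (ha : 1 ≤ a) :
    ∑ n ∈ (Icc 1 N).filter Squarefree, (((a : ℝ) / d) ^ 2) ^ n.primeFactors.card / n ≤
      diag (cutoff (ArithmeticFunction.zeta : ArithmeticFunction ℝ) M *
        cutoff (sqfWeight (1 / d : ℝ)) N ^ (a - d)) (cutoff (sqfWeight (1 / d : ℝ)) N ^ a)
        (N ^ a) := by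
  have hu : (0 : ℝ) ≤ 1 / d := by positivity
  have hd' : (0 : ℝ) < d := Nat.cast_pos.2 hd
  have hc := fun n => (cutoff_le (sqfWeight_nonneg hu) N n).1
  have hz := fun n => (cutoff_le (f := (ArithmeticFunction.zeta : ArithmeticFunction ℝ))
    (fun k => by rw [natCoe_apply]; positivity) M n).1
  refine le_trans (sum_le_sum fun n hn => ?_) (sum_le_sum_of_subset_of_nonneg
    (fun n hn => ?_) fun n _ _ => div_nonneg (mul_nonneg
      (mul_nonneg_apply hz (pow_nonneg_apply hc _) n) (pow_nonneg_apply hc _ n))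
      (Nat.cast_nonneg n))
  · obtain ⟨hn1, hsq⟩ := mem_filter.1 hn
    have hnN := (mem_Icc.1 hn1).2
    rw [mul_congr_le (g' := sqfWeight (1 / d : ℝ) ^ (a - d))
      (f' := (ArithmeticFunction.zeta : ArithmeticFunction ℝ))
      (fun k hk => by rw [cutoff_apply, if_pos (hk.trans hNM)])
      (fun k hk => cutoff_pow_apply _ _ hk) hnN, cutoff_pow_apply _ _ hnN,
      zeta_mul_pow_squarefree _ _ hsq, pow_sqfWeight_squarefree _ _ hsq, ← mul_pow]
    refine le_of_eq ?_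
    congr 2
    rw [Nat.cast_sub hda]
    field_simp
    ring
  · obtain ⟨hn1, -⟩ := mem_filter.1 hn
    rw [mem_Icc] at hn1 ⊢
    exact ⟨hn1.1, hn1.2.trans (Nat.le_self_pow (by omega) N)⟩

/-- The integrand in the polynomials. -/
theorem lineSum_eq_poly (M : ℕ) (t : ℝ) :
    lineSum M t = poly (cutoff (ArithmeticFunction.zeta : ArithmeticFunction ℝ) M) M t := by
  rw [lineSum_eq_wave, poly]
  refine sum_congr rfl fun n hn => ?_
  obtain ⟨h1, h2⟩ := mem_Icc.1 hn
  rw [cutoff_apply, if_pos h2, natCoe_apply, zeta_apply_ne (by omega), Nat.cast_one]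

/-- **Lower bounds for the moments, rational exponent `a / d ≥ 1`.** -/
theorem exists_moment_lower {a d : ℕ} (hd : 0 < d) (hda : d ≤ a) :
    ∃ c, 0 < c ∧ ∀ᶠ T : ℝ in atTop, c * T * Real.log T ^ (((a : ℝ) / d) ^ 2) ≤
      ∫ t in T..2 * T, ‖riemannZeta (1 / 2 + t * Complex.I)‖ ^ (2 * ((a : ℝ) / d)) := by
  obtain ⟨k, hk⟩ : ∃ k, k = (a : ℝ) / d := ⟨_, rfl⟩
  rw [← hk]
  have ha : 1 ≤ a := by omega
  have hd' : (0 : ℝ) < d := Nat.cast_pos.2 hd
  have hk1 : 1 ≤ k := hk ▸ (one_le_div hd').2 (Nat.cast_le.2 hda)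
  obtain ⟨u, hu⟩ : ∃ u : ℝ, u = 1 / d := ⟨_, rfl⟩
  have hu0 : 0 ≤ u := hu ▸ by positivity
  have hu1 : u ≤ 1 := hu ▸ (div_le_one hd').2 (Nat.one_le_cast.2 hd)
  obtain ⟨g, hg⟩ : ∃ g, g = k ^ 2 := ⟨_, rfl⟩
  have hg1 : 1 ≤ g := hg ▸ one_le_pow₀ hk1
  obtain ⟨C, hC0, hC⟩ := exists_sum_sq_div_le u a
  rw [show (a : ℝ) * u = k by rw [hu, hk, mul_one_div], ← hg] at hC
  obtain ⟨c, hc0, hc⟩ := exists_le_sum_squarefree (show 0 ≤ g by linarith)
  obtain ⟨θ, hθ⟩ : ∃ θ : ℝ, θ = 1 / (8 * a) := ⟨_, rfl⟩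
  have hθ0 : 0 < θ := hθ ▸ by positivity
  obtain ⟨c', hc'⟩ : ∃ c', c' = c * (θ / 2) ^ g := ⟨_, rfl⟩
  have hc'0 : 0 < c' := hc' ▸ by positivity
  obtain ⟨K, hK⟩ : ∃ K : ℝ, K = 32 * 2 ^ (2 * a) := ⟨_, rfl⟩
  have hK0 : 0 < K := hK ▸ by positivity
  obtain ⟨C', hC'⟩ : ∃ C', C' = C + K := ⟨_, rfl⟩
  have hC'0 : 0 < C' := hC' ▸ by linarith
  obtain ⟨ε, hε⟩ : ∃ ε, ε = c' / (8 * C') := ⟨_, rfl⟩
  have hε0 : 0 < ε := hε ▸ by positivity
  obtain ⟨E, hE⟩ : ∃ E, E = ε * (1 / ε) ^ (2 * k) := ⟨_, rfl⟩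
  have hE0 : 0 < E := hE ▸ by positivity
  obtain ⟨E', hE'⟩ : ∃ E', E' = ε * (280 / ε) ^ (2 * k) + K := ⟨_, rfl⟩
  refine ⟨c' / (2 * E), by positivity, ?_⟩
  obtain ⟨Nf, hNf⟩ : ∃ Nf : ℝ → ℕ, Nf = fun T => ⌊T ^ θ⌋₊ := ⟨_, rfl⟩
  have hNtop : Tendsto Nf atTop atTop :=
    hNf ▸ tendsto_nat_floor_atTop.comp (tendsto_rpow_atTop hθ0)
  filter_upwards [hNtop.eventually hc, hNtop.eventually_ge_atTop 2, eventually_ge_atTop (3 : ℝ),
    Real.tendsto_log_atTop.eventually_ge_atTop 1,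
    Real.tendsto_log_atTop.eventually_ge_atTop (2 * Real.log 2 / θ),
    Real.tendsto_log_atTop.eventually_ge_atTop (4 * E' / c')] with T hD hN2 hT hl1 hlθ hlE
  have hT0 : 0 < T := by linarith
  obtain ⟨N, hN⟩ : ∃ N, N = Nf T := ⟨_, rfl⟩
  rw [← hN] at hD hN2
  obtain ⟨M, hM⟩ : ∃ M, M = ⌊2 * T⌋₊ := ⟨_, rfl⟩
  have hN1 : (1 : ℝ) ≤ N := Nat.one_le_cast.2 (by omega)
  have hNle : (N : ℝ) ≤ T ^ θ := by
    rw [hN, hNf]
    exact Nat.floor_le (by positivity)
  have hNlt : T ^ θ < (N : ℝ) + 1 := by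
    rw [hN, hNf]
    exact Nat.lt_floor_add_one _
  have hM2 : 2 * T < (M : ℝ) + 1 := hM ▸ Nat.lt_floor_add_one _
  have hMle : (M : ℝ) ≤ 2 * T := hM ▸ Nat.floor_le (by linarith)
  obtain ⟨Q, hQ⟩ : ∃ Q, Q = T ^ ((1 : ℝ) / 8) := ⟨_, rfl⟩
  have hQ1 : 1 ≤ Q := hQ ▸ Real.one_le_rpow (by linarith) (by norm_num)
  have hQ8 : Q ^ 8 = T := by
    rw [hQ, ← Real.rpow_natCast, ← Real.rpow_mul hT0.le]
    norm_num
  have hQT : Q ≤ T := (le_self_pow₀ hQ1 (by norm_num)).trans_eq hQ8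
  have hNa : ((N ^ a : ℕ) : ℝ) ≤ Q := by
    have haR : (a : ℝ) ≠ 0 := Nat.cast_ne_zero.2 (by omega)
    rw [Nat.cast_pow, hQ, show (1 : ℝ) / 8 = θ * a by rw [hθ]; field_simp,
      Real.rpow_mul hT0.le, Real.rpow_natCast]
    exact pow_le_pow_left₀ (Nat.cast_nonneg N) hNle _
  have hNaM : N ^ a ≤ M := by
    rw [← Nat.lt_add_one_iff, ← Nat.cast_lt (α := ℝ)]
    push_cast at hNa ⊢
    linarith
  have hNM : N ≤ M := (Nat.le_self_pow (by omega) N).trans hNaM
  obtain ⟨f, hf⟩ : ∃ f, f = cutoff (sqfWeight u) N := ⟨_, rfl⟩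
  obtain ⟨h, hh⟩ : ∃ h, h = cutoff (ArithmeticFunction.zeta : ArithmeticFunction ℝ) M *
      f ^ (a - d) := ⟨_, rfl⟩
  have hf0 : ∀ n, 0 ≤ f n := fun n => hf ▸ (cutoff_le (sqfWeight_nonneg hu0) N n).1
  have hz0 : ∀ n, 0 ≤ cutoff (ArithmeticFunction.zeta : ArithmeticFunction ℝ) M n := fun n =>
    (cutoff_le (fun k => by rw [natCoe_apply]; positivity) M n).1
  have hh0 : ∀ n, 0 ≤ h n := fun n => hh ▸ mul_nonneg_apply hz0 (pow_nonneg_apply hf0 _) n
  have hfsupp : ∀ n, N < n → f n = 0 := fun n hn => hf ▸ cutoff_of_lt _ hn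
  obtain ⟨X, hX⟩ : ∃ X, X = M * N ^ (a - d) := ⟨_, rfl⟩
  have hYX : N ^ a ≤ X := hX ▸ hNaM.trans (Nat.le_mul_of_pos_right _ (Nat.pow_pos (by omega)))
  have hmassf : mass f N ≤ 2 * √(N : ℝ) := hf ▸ mass_cutoff_le (sqfWeight_le_one hu0 hu1) N
  have hmz : mass (cutoff (ArithmeticFunction.zeta : ArithmeticFunction ℝ) M) M ≤
      2 * √(M : ℝ) := by
    refine mass_cutoff_le (fun n => ?_) M
    rw [natCoe_apply, zeta_apply]
    split_ifs <;> simp
  have hsN : √(N : ℝ) ^ (2 * a) ≤ Q := by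
    rw [pow_mul, Real.sq_sqrt (Nat.cast_nonneg N), ← Nat.cast_pow]
    exact hNa
  have hpow_eq : ∀ (m : ℕ) (t : ℝ), poly f N t ^ m = poly (f ^ m) (N ^ m) t := fun m t =>
    hf ▸ poly_cutoff_pow _ N m t
  have hmass_eq : ∀ m : ℕ, mass (f ^ m) (N ^ m) = mass f N ^ m := fun m =>
    hf ▸ mass_cutoff_pow _ N m
  -- the integral against `ζ`
  have hI : T * (c' * Real.log T ^ g) - K * T ≤
      ∫ t in T..2 * T, ‖lineSum M t‖ * ‖poly f N t‖ ^ (2 * a - d) := by
    have e : ∀ t, poly h X t * conj (poly (f ^ a) (N ^ a) t) =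
        lineSum M t * poly f N t ^ (a - d) * conj (poly f N t ^ a) := fun t => by
      rw [hpow_eq, hpow_eq, lineSum_eq_poly, hh, hX,
        poly_mul (fun n hn => cutoff_of_lt _ hn) fun n hn => hf ▸ cutoff_pow_eq_zero _ N _ hn]
    have e2 : ∀ t, ‖poly h X t * conj (poly (f ^ a) (N ^ a) t)‖ =
        ‖lineSum M t‖ * ‖poly f N t‖ ^ (2 * a - d) := fun t => by
      rw [e, norm_mul, norm_mul, Complex.norm_conj, norm_pow, norm_pow, mul_assoc, ← pow_add,
        show a - d + a = 2 * a - d by omega]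
    have h1 := norm_integral_poly_conj_sub_le hh0 (pow_nonneg_apply hf0 a) hYX T
    have h2 : ‖∫ t in T..2 * T, poly h X t * conj (poly (f ^ a) (N ^ a) t)‖ ≤
        ∫ t in T..2 * T, ‖lineSum M t‖ * ‖poly f N t‖ ^ (2 * a - d) :=
      (intervalIntegral.norm_integral_le_integral_norm (by linarith)).trans_eq
        (intervalIntegral.integral_congr fun t _ => e2 t)
    have h3 := (norm_le_norm_add_norm_sub' ((T * diag h (f ^ a) (N ^ a) : ℝ) : ℂ)
      (∫ t in T..2 * T, poly h X t * conj (poly (f ^ a) (N ^ a) t)))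
    rw [norm_sub_rev, Complex.norm_real] at h3
    have hdiag : c' * Real.log T ^ g ≤ diag h (f ^ a) (N ^ a) := by
      have h4 := le_diag_zeta hd hda hNM ha
      rw [← hk, ← hg, ← hu, ← hf, ← hh] at h4
      refine le_trans ?_ (hD.trans h4)
      rw [hc', mul_assoc, ← Real.mul_rpow (by positivity) (by linarith)]
      refine mul_le_mul_of_nonneg_left (Real.rpow_le_rpow (by positivity) ?_ (by linarith)) hc0.le
      have h5 : Real.log (T ^ θ) ≤ Real.log ((N : ℝ) + 1) := Real.log_le_log (by positivity) hNlt.le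
      have h6 : Real.log ((N : ℝ) + 1) ≤ Real.log 2 + Real.log N := by
        rw [← Real.log_mul two_ne_zero (by linarith)]
        exact Real.log_le_log (by linarith) (by linarith)
      rw [Real.log_rpow hT0] at h5
      rw [div_le_iff₀ hθ0] at hlθ
      linarith
    have hmh : mass h X ≤ 2 * √(M : ℝ) * (2 * √(N : ℝ)) ^ (a - d) := by
      rw [hh, hX, mass_mul (fun n hn => cutoff_of_lt _ hn)
        fun n hn => hf ▸ cutoff_pow_eq_zero _ N _ hn, hmass_eq]
      exact mul_le_mul hmz (pow_le_pow_left₀ (mass_nonneg hf0 N) hmassf _)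
        (pow_nonneg (mass_nonneg hf0 N) _) (by positivity)
    have herr : 2 * (((N ^ a : ℕ) : ℝ) + 1) * (mass h X * mass (f ^ a) (N ^ a)) ≤ K * T := by
      rw [hmass_eq]
      calc 2 * (((N ^ a : ℕ) : ℝ) + 1) * (mass h X * mass f N ^ a)
          ≤ 2 * (Q + Q) * (2 * √(M : ℝ) * (2 * √(N : ℝ)) ^ (a - d) * (2 * √(N : ℝ)) ^ a) := by
            have hm1 := mass_nonneg hh0 X
            have hm2 := pow_nonneg (mass_nonneg hf0 N) a
            have hm3 := pow_le_pow_left₀ (mass_nonneg hf0 N) hmassf a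
            gcongr
        _ ≤ 4 * Q * (2 * (2 * Q ^ 4) * (2 ^ (2 * a) * Q)) := by
            rw [mul_assoc (2 * √(M : ℝ)), ← pow_add, ← two_mul Q, ← mul_assoc (2 : ℝ) 2 Q]
            norm_num only
            refine mul_le_mul_of_nonneg_left ?_ (by positivity)
            refine mul_le_mul (mul_le_mul_of_nonneg_left ?_ zero_le_two) ?_ (by positivity)
              (by positivity)
            · rw [Real.sqrt_le_iff]
              refine ⟨by positivity, ?_⟩
              rw [mul_pow, ← pow_mul, hQ8]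
              linarith
            · refine (pow_le_pow_right₀ (?_ : (1 : ℝ) ≤ 2 * √(N : ℝ))
                (show a - d + a ≤ 2 * a by omega)).trans ?_
              · linarith [Real.one_le_sqrt.2 hN1]
              · rw [mul_pow]
                exact mul_le_mul_of_nonneg_left hsN (by positivity)
        _ ≤ K * T := by
            rw [hK, show 4 * Q * (2 * (2 * Q ^ 4) * (2 ^ (2 * a) * Q)) =
              16 * 2 ^ (2 * a) * Q ^ 6 by ring]
            refine mul_le_mul (by linarith [show (0 : ℝ) < 2 ^ (2 * a) by positivity])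
              ((pow_le_pow_right₀ hQ1 (by norm_num : 6 ≤ 8)).trans_eq hQ8) (by positivity)
              (by positivity)
    have h7 := mul_le_mul_of_nonneg_left hdiag hT0.le
    have h8 := le_abs_self (T * diag h (f ^ a) (N ^ a))
    rw [Real.norm_eq_abs] at h3
    linarith
  -- the mean value
  have hJ : ∫ t in T..2 * T, ‖poly f N t‖ ^ (2 * a) ≤ C' * (T * Real.log T ^ g) := by
    have e : ∀ t, ‖poly (f ^ a) (N ^ a) t‖ ^ 2 = ‖poly f N t‖ ^ (2 * a) := fun t => by
      rw [← hpow_eq, norm_pow, ← pow_mul, mul_comm a]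
    have h1 := (abs_le.1 (abs_integral_norm_poly_sq_sub_le (pow_nonneg_apply hf0 a) (N ^ a) T)).2
    simp only [e, hmass_eq] at h1
    have hlg : 1 ≤ Real.log T ^ g := Real.one_le_rpow hl1 (by linarith)
    have hdiag : diag (f ^ a) (f ^ a) (N ^ a) ≤ C * Real.log T ^ g := by
      have h2 : 2 ≤ N ^ a := hN2.trans (Nat.le_self_pow (by omega) N)
      refine le_trans ?_ ((hC (N ^ a) h2).trans (mul_le_mul_of_nonneg_left (Real.rpow_le_rpow
        (Real.log_natCast_nonneg _) (Real.log_le_log (Nat.cast_pos.2 (by omega))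
          (hNa.trans hQT)) (by linarith)) hC0.le))
      refine sum_le_sum fun n _ => ?_
      have h3 : (f ^ a) n ≤ (sqfWeight u ^ a) n := pow_mono_apply hf0
        (fun k => hf ▸ (cutoff_le (sqfWeight_nonneg hu0) N k).2) a n
      rw [sq]
      exact div_le_div_of_nonneg_right (mul_self_le_mul_self (pow_nonneg_apply hf0 a n) h3)
        (Nat.cast_nonneg n)
    have herr : 2 * (((N ^ a : ℕ) : ℝ) + 1) * (mass f N ^ a) ^ 2 ≤ K * T := by
      have h4 : (mass f N ^ a) ^ 2 ≤ 2 ^ (2 * a) * Q := by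
        rw [← pow_mul, mul_comm a]
        refine (pow_le_pow_left₀ (mass_nonneg hf0 N) hmassf _).trans ?_
        rw [mul_pow]
        exact mul_le_mul_of_nonneg_left hsN (by positivity)
      calc 2 * (((N ^ a : ℕ) : ℝ) + 1) * (mass f N ^ a) ^ 2
          ≤ 2 * (Q + Q) * (2 ^ (2 * a) * Q) := by gcongr
        _ = 4 * 2 ^ (2 * a) * Q ^ 2 := by ring
        _ ≤ K * T := mul_le_mul
            (by rw [hK]; linarith [show (0 : ℝ) < 2 ^ (2 * a) by positivity])
            ((pow_le_pow_right₀ hQ1 (by norm_num : 2 ≤ 8)).trans_eq hQ8) (by positivity)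
            (by positivity)
    rw [hC']
    nlinarith [mul_le_mul_of_nonneg_left hdiag hT0.le,
      mul_le_mul_of_nonneg_left hlg (mul_nonneg hK0.le hT0.le)]
  -- pointwise
  have hpt : ∀ t ∈ Set.Icc T (2 * T), ‖lineSum M t‖ * ‖poly f N t‖ ^ (2 * a - d) ≤
      2 * ε * ‖poly f N t‖ ^ (2 * a) + (E * ‖riemannZeta (1 / 2 + t * Complex.I)‖ ^ (2 * k) +
        ε * (280 / ε) ^ (2 * k)) := by
    intro t ht
    obtain ⟨ht1, ht2⟩ := ht
    have herr : ‖truncErr M t‖ ≤ 280 := by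
      refine (norm_truncErr_le (by linarith) (by linarith)).trans ?_
      have h1 : √((M : ℝ) + 1) ≤ t := by
        rw [Real.sqrt_le_iff]
        exact ⟨by linarith, by nlinarith⟩
      linarith [(div_le_one (show 0 < t by linarith)).2 h1]
    have hls : ‖lineSum M t‖ ≤ ‖riemannZeta (1 / 2 + t * Complex.I)‖ + 280 := by
      have e : lineSum M t = riemannZeta (1 / 2 + t * Complex.I) - truncErr M t := by
        rw [truncErr, lineSum, sub_sub_cancel]
      rw [e]
      exact (norm_sub_le _ _).trans (by linarith)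
    obtain ⟨z, hz⟩ : ∃ z, z = ‖riemannZeta (1 / 2 + t * Complex.I)‖ := ⟨_, rfl⟩
    rw [← hz] at hls ⊢
    have hz0 : 0 ≤ z := hz ▸ norm_nonneg _
    have e1 : E * z ^ (2 * k) = ε * (z / ε) ^ (2 * k) := by
      rw [hE, mul_assoc, ← Real.mul_rpow (by positivity) hz0, one_div_mul_eq_div]
    rw [e1]
    refine (mul_le_mul_of_nonneg_right hls (by positivity)).trans ?_
    rw [add_mul]
    refine (add_le_add (mul_pow_le hd hda hε0 (norm_nonneg (poly f N t)) hz0)
      (mul_pow_le hd hda hε0 (norm_nonneg (poly f N t))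
        (show (0 : ℝ) ≤ 280 by norm_num))).trans (le_of_eq ?_)
    rw [← hk]
    ring
  have hcz : Continuous fun t : ℝ => ‖riemannZeta (1 / 2 + t * Complex.I)‖ ^ (2 * k) :=
    continuous_zeta_line.norm.rpow_const fun _ => Or.inr (by linarith)
  have hcp : Continuous fun t : ℝ => ‖poly f N t‖ := (continuous_poly f N).norm
  have hmono : ∫ t in T..2 * T, ‖lineSum M t‖ * ‖poly f N t‖ ^ (2 * a - d) ≤
      ∫ t in T..2 * T, (2 * ε * ‖poly f N t‖ ^ (2 * a) +
        (E * ‖riemannZeta (1 / 2 + t * Complex.I)‖ ^ (2 * k) + ε * (280 / ε) ^ (2 * k))) :=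
    intervalIntegral.integral_mono_on (by linarith)
      (((continuous_lineSum M).norm.mul (hcp.pow _)).intervalIntegrable _ _)
      (((continuous_const.mul (hcp.pow _)).add
        ((continuous_const.mul hcz).add continuous_const)).intervalIntegrable _ _) hpt
  have hi1 : IntervalIntegrable (fun t : ℝ => 2 * ε * ‖poly f N t‖ ^ (2 * a)) volume T (2 * T) :=
    (continuous_const.mul (hcp.pow _)).intervalIntegrable _ _
  have hi2 : IntervalIntegrable (fun t : ℝ => E * ‖riemannZeta (1 / 2 + t * Complex.I)‖ ^ (2 * k))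
      volume T (2 * T) := (continuous_const.mul hcz).intervalIntegrable _ _
  rw [intervalIntegral.integral_add hi1 (hi2.add intervalIntegrable_const),
    intervalIntegral.integral_add hi2 intervalIntegrable_const, intervalIntegral.integral_const_mul,
    intervalIntegral.integral_const_mul, intervalIntegral.integral_const, smul_eq_mul] at hmono
  -- the end
  rw [← hg]
  have hlg : Real.log T ≤ Real.log T ^ g :=
    le_of_eq_of_le (Real.rpow_one _).symm (Real.rpow_le_rpow_of_exponent_le hl1 hg1)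
  have h9 := mul_le_mul_of_nonneg_left hJ (show 0 ≤ 2 * ε by positivity)
  have h10 : 2 * ε * C' = c' / 4 := by rw [hε]; field_simp; ring
  have h11 : E' * T ≤ c' / 4 * (T * Real.log T ^ g) := by
    rw [div_le_iff₀ hc'0] at hlE
    nlinarith [mul_le_mul_of_nonneg_left (mul_le_mul_of_nonneg_left hlg hT0.le) hc'0.le,
      mul_le_mul_of_nonneg_right hlE hT0.le]
  rw [div_mul_eq_mul_div, div_mul_eq_mul_div, div_le_iff₀ (by positivity)]
  rw [← mul_assoc (2 * ε), h10] at h9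
  rw [hE'] at h11
  nlinarith

/-- **Every real exponent `≥ 1`, up to `ε` in the exponent of `log T`.** -/
theorem exists_moment_lower_real {k ε : ℝ} (hk : 1 ≤ k) (hε : 0 < ε) :
    ∃ c, 0 < c ∧ ∀ᶠ T : ℝ in atTop, c * T * Real.log T ^ (k ^ 2 - ε) ≤
      ∫ t in T..2 * T, ‖riemannZeta (1 / 2 + t * Complex.I)‖ ^ (2 * k) := by
  obtain ⟨a, d, hd, hda, hle, hge⟩ : ∃ a d : ℕ, 0 < d ∧ d ≤ a ∧ (a : ℝ) / d ≤ k ∧
      k - ε / k ≤ (a : ℝ) / d := by
    obtain ⟨d, hd⟩ := exists_nat_gt (max 1 (k / ε))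
    rw [max_lt_iff] at hd
    have hd0 : (0 : ℝ) < d := by linarith
    refine ⟨⌊k * d⌋₊, d, Nat.cast_pos.1 hd0, Nat.le_floor (le_mul_of_one_le_left hd0.le hk),
      (div_le_iff₀ hd0).2 (Nat.floor_le (by positivity)), ?_⟩
    rw [le_div_iff₀ hd0]
    have h1 : 1 ≤ ε / k * d := by
      rw [div_mul_eq_mul_div, le_div_iff₀ (by linarith)]
      have := (div_lt_iff₀ hε).1 hd.2
      linarith
    linarith [Nat.lt_floor_add_one (k * (d : ℝ))]
  obtain ⟨r, hr⟩ : ∃ r, r = (a : ℝ) / d := ⟨_, rfl⟩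
  rw [← hr] at hle hge
  have hr1 : 1 ≤ r := hr ▸ (one_le_div (Nat.cast_pos.2 hd)).2 (Nat.cast_le.2 hda)
  obtain ⟨c, hc0, hc⟩ := exists_moment_lower hd hda
  rw [← hr] at hc
  refine ⟨(c / 2) ^ (k / r), by positivity, ?_⟩
  filter_upwards [hc, eventually_gt_atTop (0 : ℝ),
    Real.tendsto_log_atTop.eventually_ge_atTop 1] with T hT hT0 hl
  obtain ⟨L, hL⟩ : ∃ L, L = c / 2 * Real.log T ^ (r ^ 2) := ⟨_, rfl⟩
  have hL0 : 0 < L := hL ▸ by positivity
  have hcont : ∀ e : ℝ, 1 ≤ e → Continuous fun t : ℝ =>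
      ‖riemannZeta (1 / 2 + t * Complex.I)‖ ^ (2 * e) := fun e he =>
    continuous_zeta_line.norm.rpow_const fun _ => Or.inr (by linarith)
  have hpt : ∀ t ∈ Set.Icc T (2 * T), ‖riemannZeta (1 / 2 + t * Complex.I)‖ ^ (2 * r) ≤
      L + L ^ (1 - k / r) * ‖riemannZeta (1 / 2 + t * Complex.I)‖ ^ (2 * k) := by
    intro t _
    obtain ⟨w, hw⟩ : ∃ w, w = ‖riemannZeta (1 / 2 + t * Complex.I)‖ ^ (2 * r) := ⟨_, rfl⟩
    have hw0 : 0 ≤ w := hw ▸ Real.rpow_nonneg (norm_nonneg _) _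
    have e : ‖riemannZeta (1 / 2 + t * Complex.I)‖ ^ (2 * k) = w ^ (k / r) := by
      rw [hw, ← Real.rpow_mul (norm_nonneg _)]
      congr 1
      field_simp
    rw [e, ← hw]
    rcases le_or_gt w L with h | h
    · exact h.trans (le_add_of_nonneg_right (by positivity))
    · refine le_trans ?_ (le_add_of_nonneg_left hL0.le)
      have hwp : 0 < w := hL0.trans h
      calc w = w ^ (1 - k / r) * w ^ (k / r) := by
            rw [← Real.rpow_add hwp, sub_add_cancel, Real.rpow_one]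
        _ ≤ L ^ (1 - k / r) * w ^ (k / r) := mul_le_mul_of_nonneg_right
            (Real.rpow_le_rpow_of_nonpos hL0 h.le
              (by linarith [(one_le_div (show 0 < r by linarith)).2 hle])) (by positivity)
  have hmono : ∫ t in T..2 * T, ‖riemannZeta (1 / 2 + t * Complex.I)‖ ^ (2 * r) ≤
      ∫ t in T..2 * T,
        (L + L ^ (1 - k / r) * ‖riemannZeta (1 / 2 + t * Complex.I)‖ ^ (2 * k)) :=
    intervalIntegral.integral_mono_on (by linarith) ((hcont r hr1).intervalIntegrable _ _)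
      ((continuous_const.add (continuous_const.mul (hcont k hk))).intervalIntegrable _ _) hpt
  rw [intervalIntegral.integral_add (continuous_const.intervalIntegrable _ _)
      (((hcont k hk).intervalIntegrable _ _).const_mul _), intervalIntegral.integral_const,
    intervalIntegral.integral_const_mul, smul_eq_mul] at hmono
  obtain ⟨J, hJ⟩ : ∃ J, J = ∫ t in T..2 * T,
      ‖riemannZeta (1 / 2 + t * Complex.I)‖ ^ (2 * k) := ⟨_, rfl⟩
  rw [← hJ] at hmono ⊢
  have h1 : T * L ≤ L ^ (1 - k / r) * J := by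
    have : c * T * Real.log T ^ r ^ 2 = 2 * (T * L) := by rw [hL]; ring
    linarith
  have h2 : T * L ^ (k / r) ≤ J := by
    refine le_of_mul_le_mul_left ?_ (Real.rpow_pos_of_pos hL0 (1 - k / r))
    rwa [mul_left_comm, ← Real.rpow_add hL0, sub_add_cancel, Real.rpow_one]
  refine le_trans ?_ h2
  rw [hL, Real.mul_rpow (by positivity) (by positivity), ← Real.rpow_mul (by linarith),
    mul_comm _ T, mul_assoc]
  refine mul_le_mul_of_nonneg_left (mul_le_mul_of_nonneg_left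
    (Real.rpow_le_rpow_of_exponent_le hl ?_) (by positivity)) hT0.le
  rw [show r ^ 2 * (k / r) = r * k by field_simp]
  nlinarith [mul_le_mul_of_nonneg_right hge (show 0 ≤ k by linarith),
    div_mul_cancel₀ ε (show k ≠ 0 by linarith)]

end FA.MomentLower
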