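import Fermat.Agent.MomentLower.Coeff
import Fermat.Agent.SelbergCLT.Moments

/-!
# Short Dirichlet polynomials on the critical line

The product of two of them has the convolution for coefficients; the integral over `[T, 2T]` of
one against the conjugate of another is `T` times the diagonal, up to the length of the second
times the values at `0`.
-/

set_option autoImplicit false

noncomputable section

namespace FA.MomentLower

open Finset ArithmeticFunction MeasureTheory
open FA.Resonance (wave norm_wave wave_add conj_wave continuous_wave inv_le_abs_log_sub)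
open FA.SelbergCLT (norm_integral_wave_le wave_zero)
open scoped ComplexConjugate

/-- `∑_{n ≤ X} f n n ^ (-1/2 - it)`. -/
def poly (f : ArithmeticFunction ℝ) (X : ℕ) (t : ℝ) : ℂ :=
  ∑ n ∈ Icc 1 X, ((f n / √(n : ℝ) : ℝ) : ℂ) * wave (-Real.log n) t

/-- `∑_{n ≤ X} f n / √n`. -/
def mass (f : ArithmeticFunction ℝ) (X : ℕ) : ℝ := ∑ n ∈ Icc 1 X, f n / √(n : ℝ)

theorem poly_zero_eq (f : ArithmeticFunction ℝ) (X : ℕ) : poly f X 0 = (mass f X : ℂ) := by
  rw [poly, mass, Complex.ofReal_sum]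
  exact sum_congr rfl fun n _ => by simp [wave]

theorem mass_nonneg {f : ArithmeticFunction ℝ} (hf : ∀ n, 0 ≤ f n) (X : ℕ) : 0 ≤ mass f X :=
  sum_nonneg fun n _ => div_nonneg (hf n) (Real.sqrt_nonneg _)

theorem continuous_poly (f : ArithmeticFunction ℝ) (X : ℕ) : Continuous (poly f X) :=
  continuous_finsetSum _ fun _ _ => continuous_const.mul (continuous_wave _)

/-- **The product of two polynomials.** -/
theorem poly_mul {f g : ArithmeticFunction ℝ} {X Y : ℕ} (hf : ∀ n, X < n → f n = 0)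
    (hg : ∀ n, Y < n → g n = 0) (t : ℝ) :
    poly f X t * poly g Y t = poly (f * g) (X * Y) t := by
  classical
  rw [poly, poly, poly, sum_mul_sum, ← sum_product',
    ← sum_fiberwise_of_maps_to (s := Icc 1 X ×ˢ Icc 1 Y) (t := Icc 1 (X * Y))
      (g := fun x : ℕ × ℕ => x.1 * x.2) fun x hx => by
        simp only [Finset.mem_product, mem_Icc] at hx ⊢
        exact ⟨Nat.mul_pos hx.1.1 hx.2.1, Nat.mul_le_mul hx.1.2 hx.2.2⟩]
  refine sum_congr rfl fun n hn => ?_
  have hn0 : n ≠ 0 := Nat.one_le_iff_ne_zero.1 (mem_Icc.1 hn).1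
  rw [mul_apply, sum_div, Complex.ofReal_sum, sum_mul]
  refine (sum_congr rfl fun x hx => ?_).trans
    (sum_subset (fun x hx => ?_) fun x hx hxs => ?_)
  · simp only [mem_filter, Finset.mem_product, mem_Icc] at hx
    obtain ⟨⟨⟨h1, -⟩, h2, -⟩, h3⟩ := hx
    rw [← h3, Nat.cast_mul, Real.sqrt_mul (Nat.cast_nonneg _),
      Real.log_mul (Nat.cast_ne_zero.2 (by omega)) (Nat.cast_ne_zero.2 (by omega)), neg_add,
      wave_add]
    push_cast
    ring
  · simp only [mem_filter, Finset.mem_product, mem_Icc] at hx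
    exact Nat.mem_divisorsAntidiagonal.2 ⟨hx.2, hn0⟩
  · obtain ⟨h3, -⟩ := Nat.mem_divisorsAntidiagonal.1 hx
    simp only [mem_filter, Finset.mem_product, mem_Icc, h3, and_true] at hxs
    have h1 : 1 ≤ x.1 := Nat.one_le_iff_ne_zero.2 fun h => hn0 (by rw [← h3, h, zero_mul])
    have h2 : 1 ≤ x.2 := Nat.one_le_iff_ne_zero.2 fun h => hn0 (by rw [← h3, h, mul_zero])
    rcases lt_or_ge X x.1 with h | h
    · rw [hf _ h]; simp
    rcases lt_or_ge Y x.2 with h' | h'
    · rw [hg _ h']; simp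
    exact absurd ⟨⟨h1, h⟩, h2, h'⟩ hxs

theorem mass_mul {f g : ArithmeticFunction ℝ} {X Y : ℕ} (hf : ∀ n, X < n → f n = 0)
    (hg : ∀ n, Y < n → g n = 0) : mass (f * g) (X * Y) = mass f X * mass g Y := by
  have h := poly_mul hf hg 0
  rw [poly_zero_eq, poly_zero_eq, poly_zero_eq, ← Complex.ofReal_mul] at h
  exact (Complex.ofReal_injective h).symm

/-- **A power of a polynomial.** -/
theorem poly_cutoff_pow (f : ArithmeticFunction ℝ) (N m : ℕ) (t : ℝ) :
    poly (cutoff f N) N t ^ m = poly (cutoff f N ^ m) (N ^ m) t := by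
  induction m with
  | zero => simp [poly, one_apply, wave_zero]
  | succ m ih =>
    rw [pow_succ, pow_succ, pow_succ, ih, poly_mul (fun n hn => cutoff_pow_eq_zero f N m hn)
      fun n hn => cutoff_of_lt f hn]

theorem mass_cutoff_pow (f : ArithmeticFunction ℝ) (N m : ℕ) :
    mass (cutoff f N ^ m) (N ^ m) = mass (cutoff f N) N ^ m := by
  have h := poly_cutoff_pow f N m 0
  rw [poly_zero_eq, poly_zero_eq, ← Complex.ofReal_pow] at h
  exact (Complex.ofReal_injective h).symm

/-- The diagonal `∑_{n ≤ Y} f n g n / n`. -/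
def diag (f g : ArithmeticFunction ℝ) (Y : ℕ) : ℝ := ∑ n ∈ Icc 1 Y, f n * g n / n

/-- **The integral of one polynomial against the conjugate of a shorter one.** -/
theorem norm_integral_poly_conj_sub_le {f g : ArithmeticFunction ℝ} (hf : ∀ n, 0 ≤ f n)
    (hg : ∀ n, 0 ≤ g n) {X Y : ℕ} (hYX : Y ≤ X) (T : ℝ) :
    ‖(∫ t in T..2 * T, poly f X t * conj (poly g Y t)) - ((T * diag f g Y : ℝ) : ℂ)‖ ≤
      2 * ((Y : ℝ) + 1) * (mass f X * mass g Y) := by
  classical
  have e : ∀ t, poly f X t * conj (poly g Y t) = ∑ x ∈ Icc 1 X ×ˢ Icc 1 Y,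
      ((f x.1 / √(x.1 : ℝ) * (g x.2 / √(x.2 : ℝ)) : ℝ) : ℂ) *
        wave (Real.log x.2 - Real.log x.1) t := by
    intro t
    rw [poly, poly, map_sum, sum_mul_sum, ← sum_product']
    refine sum_congr rfl fun x _ => ?_
    rw [map_mul, Complex.conj_ofReal, conj_wave, neg_neg,
      show Real.log x.2 - Real.log x.1 = -Real.log x.1 + Real.log x.2 by ring, wave_add,
      Complex.ofReal_mul]
    ring
  simp only [e]
  have hint : ∀ x ∈ Icc 1 X ×ˢ Icc 1 Y, IntervalIntegrable (fun t =>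
      ((f x.1 / √(x.1 : ℝ) * (g x.2 / √(x.2 : ℝ)) : ℝ) : ℂ) *
        wave (Real.log x.2 - Real.log x.1) t) volume T (2 * T) := fun x _ =>
    (continuous_const.mul (continuous_wave _)).intervalIntegrable _ _
  rw [intervalIntegral.integral_finsetSum hint]
  simp only [intervalIntegral.integral_const_mul]
  obtain ⟨D, hD⟩ : ∃ D, D = (Icc 1 X ×ˢ Icc 1 Y).filter fun x : ℕ × ℕ => x.1 = x.2 := ⟨_, rfl⟩
  have hdiag : ∑ x ∈ D, ((f x.1 / √(x.1 : ℝ) * (g x.2 / √(x.2 : ℝ)) : ℝ) : ℂ) *
      ∫ t in T..2 * T, wave (Real.log x.2 - Real.log x.1) t = ((T * diag f g Y : ℝ) : ℂ) := by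
    rw [diag, mul_sum, Complex.ofReal_sum]
    refine sum_nbij' (fun x => x.1) (fun n => (n, n)) ?_ ?_ ?_ (fun n _ => rfl) ?_
    · intro x hx
      simp only [hD, mem_filter, Finset.mem_product, mem_Icc] at hx ⊢
      exact hx.2 ▸ hx.1.2
    · intro n hn
      simp only [hD, mem_filter, Finset.mem_product, mem_Icc] at hn ⊢
      exact ⟨⟨⟨hn.1, hn.2.trans hYX⟩, hn⟩, trivial⟩
    · intro x hx
      simp only [hD, mem_filter] at hx
      exact Prod.ext rfl hx.2
    · intro x hx
      simp only [hD, mem_filter] at hx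
      simp only [← hx.2, sub_self, wave_zero, intervalIntegral.integral_const, Complex.real_smul,
        mul_one, ← Complex.ofReal_mul]
      congr 1
      rw [div_mul_div_comm, Real.mul_self_sqrt (Nat.cast_nonneg _)]
      ring
  rw [← sum_sdiff (show D ⊆ Icc 1 X ×ˢ Icc 1 Y from hD ▸ filter_subset _ _), hdiag,
    add_sub_cancel_right, mass, mass, sum_mul_sum, ← sum_product', mul_sum]
  refine (norm_sum_le _ _).trans ((sum_le_sum (g := fun x : ℕ × ℕ => 2 * ((Y : ℝ) + 1) *
    (f x.1 / √(x.1 : ℝ) * (g x.2 / √(x.2 : ℝ)))) fun x hx => ?_).trans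
      (sum_le_sum_of_subset_of_nonneg sdiff_subset fun x _ _ => ?_))
  · simp only [hD, Finset.mem_sdiff, mem_filter, Finset.mem_product, mem_Icc, not_and] at hx
    have h0 : 0 ≤ f x.1 / √(x.1 : ℝ) * (g x.2 / √(x.2 : ℝ)) :=
      mul_nonneg (div_nonneg (hf _) (Real.sqrt_nonneg _)) (div_nonneg (hg _) (Real.sqrt_nonneg _))
    rw [norm_mul, Complex.norm_real, Real.norm_of_nonneg h0, mul_comm (2 * ((Y : ℝ) + 1))]
    refine mul_le_mul_of_nonneg_left ?_ h0
    have hsep := inv_le_abs_log_sub hx.1.2.1 hx.1.2.2 hx.1.1.1 fun h => hx.2 hx.1 h.symm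
    have hY : (0 : ℝ) < (Y : ℝ) + 1 := by positivity
    have hne : Real.log x.2 - Real.log x.1 ≠ 0 := fun h => by
      rw [h, abs_zero] at hsep
      linarith [show (0 : ℝ) < 1 / ((Y : ℝ) + 1) by positivity]
    refine (norm_integral_wave_le hne T (2 * T)).trans ?_
    rw [div_le_iff₀ (abs_pos.2 hne)]
    rw [div_le_iff₀ hY] at hsep
    linarith
  · exact mul_nonneg (by positivity) (mul_nonneg (div_nonneg (hf _) (Real.sqrt_nonneg _))
      (div_nonneg (hg _) (Real.sqrt_nonneg _)))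

/-- **The mean square of a polynomial.** -/
theorem abs_integral_norm_poly_sq_sub_le {f : ArithmeticFunction ℝ} (hf : ∀ n, 0 ≤ f n) (X : ℕ)
    (T : ℝ) :
    |(∫ t in T..2 * T, ‖poly f X t‖ ^ 2) - T * diag f f X| ≤
      2 * ((X : ℝ) + 1) * mass f X ^ 2 := by
  have h := norm_integral_poly_conj_sub_le hf hf (le_refl X) T
  simp only [Complex.mul_conj', ← Complex.ofReal_pow, intervalIntegral.integral_ofReal,
    ← Complex.ofReal_sub, Complex.norm_real, Real.norm_eq_abs, ← sq] at h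
  exact h

end FA.MomentLower
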